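import Mathlib

/-!
# Adic limits along an ultrafilter (helper967, row S59, piece PATCH)

For a commutative ring `A` which is `I`-adically complete and has finite quotients `A ⧸ I ^ k`,
every sequence `a : ℕ → A` has a unique `I`-adic limit along a given ultrafilter on `ℕ`.
Taking this limit is a ring homomorphism `(ℕ → A) →+* A`.
-/

set_option autoImplicit false

namespace Fermat.Agent.S59.Patch.H967

open Filter

section Ulim

variable {A : Type*} [CommRing A]

/-- `L` is an `I`-adic limit of the sequence `a` along the ultrafilter `𝔉`. -/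
def IsUlim (I : Ideal A) (𝔉 : Ultrafilter ℕ) (a : ℕ → A) (L : A) : Prop :=
  ∀ k : ℕ, ∀ᶠ n in (𝔉 : Filter ℕ), a n - L ∈ I ^ k

variable {I : Ideal A} {𝔉 : Ultrafilter ℕ}

theorem IsUlim.const (c : A) : IsUlim I 𝔉 (fun _ => c) c := fun k => by simp

theorem IsUlim.add {a b : ℕ → A} {L L' : A} (ha : IsUlim I 𝔉 a L) (hb : IsUlim I 𝔉 b L') :
    IsUlim I 𝔉 (fun n => a n + b n) (L + L') := fun k => by
  filter_upwards [ha k, hb k] with n h1 h2
  have : a n + b n - (L + L') = (a n - L) + (b n - L') := by ring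
  rw [this]; exact Ideal.add_mem _ h1 h2

theorem IsUlim.neg {a : ℕ → A} {L : A} (ha : IsUlim I 𝔉 a L) :
    IsUlim I 𝔉 (fun n => - a n) (- L) := fun k => by
  filter_upwards [ha k] with n h1
  have : - a n - (- L) = - (a n - L) := by ring
  rw [this]; exact Ideal.neg_mem_iff _ |>.mpr h1

theorem IsUlim.sub {a b : ℕ → A} {L L' : A} (ha : IsUlim I 𝔉 a L) (hb : IsUlim I 𝔉 b L') :
    IsUlim I 𝔉 (fun n => a n - b n) (L - L') := fun k => by
  filter_upwards [ha k, hb k] with n h1 h2
  have : a n - b n - (L - L') = (a n - L) - (b n - L') := by ring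
  rw [this]; exact Ideal.sub_mem _ h1 h2

theorem IsUlim.mul {a b : ℕ → A} {L L' : A} (ha : IsUlim I 𝔉 a L) (hb : IsUlim I 𝔉 b L') :
    IsUlim I 𝔉 (fun n => a n * b n) (L * L') := fun k => by
  filter_upwards [ha k, hb k] with n h1 h2
  have : a n * b n - L * L' = (a n - L) * b n + L * (b n - L') := by ring
  rw [this]
  exact Ideal.add_mem _ (Ideal.mul_mem_right _ _ h1) (Ideal.mul_mem_left _ _ h2)

theorem IsUlim.sum {ι : Type*} (s : Finset ι) {a : ι → ℕ → A} {L : ι → A}
    (ha : ∀ i ∈ s, IsUlim I 𝔉 (a i) (L i)) :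
    IsUlim I 𝔉 (fun n => ∑ i ∈ s, a i n) (∑ i ∈ s, L i) := by
  classical
  induction s using Finset.induction_on with
  | empty => simpa using IsUlim.const (I := I) (𝔉 := 𝔉) (0 : A)
  | insert i s hi ih =>
    have h1 := (ha i (Finset.mem_insert_self i s)).add
      (ih fun j hj => ha j (Finset.mem_insert_of_mem hj))
    simpa [Finset.sum_insert hi] using h1

theorem IsUlim.congr {a b : ℕ → A} {L : A} (ha : IsUlim I 𝔉 a L)
    (h : ∀ k : ℕ, ∀ᶠ n in (𝔉 : Filter ℕ), a n - b n ∈ I ^ k) : IsUlim I 𝔉 b L := fun k => by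
  filter_upwards [ha k, h k] with n h1 h2
  have : b n - L = (a n - L) - (a n - b n) := by ring
  rw [this]; exact Ideal.sub_mem _ h1 h2

theorem IsUlim.unique [IsHausdorff I A] {a : ℕ → A} {L L' : A} (h : IsUlim I 𝔉 a L)
    (h' : IsUlim I 𝔉 a L') : L = L' := by
  rw [← sub_eq_zero]
  refine IsHausdorff.haus ‹IsHausdorff I A› _ fun k => ?_
  rw [SModEq.zero, smul_eq_mul, Ideal.mul_top]
  obtain ⟨n, h1, h2⟩ := ((h k).and (h' k)).exists
  have : L - L' = (a n - L') - (a n - L) := by ring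
  rw [this]; exact Ideal.sub_mem _ h2 h1

/-- A sequence whose `n`-th term lies in `I ^ n` tends to zero along the hyperfilter. -/
theorem isUlim_zero_of_mem_pow {a : ℕ → A} (h : ∀ n, a n ∈ I ^ n) :
    IsUlim I (hyperfilter ℕ) a 0 := fun k => by
  have h1 : ∀ᶠ n in ((hyperfilter ℕ : Ultrafilter ℕ) : Filter ℕ), k ≤ n :=
    Nat.hyperfilter_le_atTop (eventually_ge_atTop k)
  filter_upwards [h1] with n hn
  rw [sub_zero]
  exact Ideal.pow_le_pow_right hn (h n)

/-- Sequences which agree modulo `I ^ n` at index `n` have the same limits along the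
hyperfilter. -/
theorem IsUlim.congr_of_mem_pow {a b : ℕ → A} {L : A} (ha : IsUlim I (hyperfilter ℕ) a L)
    (h : ∀ n, a n - b n ∈ I ^ n) : IsUlim I (hyperfilter ℕ) b L :=
  ha.congr fun k => by simpa using isUlim_zero_of_mem_pow (I := I) h k

theorem exists_isUlim [IsPrecomplete I A] (hfin : ∀ k, Finite (A ⧸ I ^ k)) (a : ℕ → A) :
    ∃ L, IsUlim I 𝔉 a L := by
  have h1 : ∀ k, ∃ c : A, ∀ᶠ n in (𝔉 : Filter ℕ), a n - c ∈ I ^ k := by
    intro k
    haveI := hfin k
    obtain ⟨q, hq⟩ :=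
      Ultrafilter.eq_pure_of_finite (𝔉.map fun n => Ideal.Quotient.mk (I ^ k) (a n))
    obtain ⟨c, rfl⟩ := Ideal.Quotient.mk_surjective q
    refine ⟨c, ?_⟩
    have h2 : ∀ᶠ x in ((𝔉.map fun n => Ideal.Quotient.mk (I ^ k) (a n) :
        Ultrafilter (A ⧸ I ^ k)) : Filter (A ⧸ I ^ k)), x = Ideal.Quotient.mk (I ^ k) c := by
      rw [hq]
      exact Filter.eventually_pure.mpr rfl
    rw [Ultrafilter.coe_map, Filter.eventually_map] at h2
    filter_upwards [h2] with n hn
    exact Ideal.Quotient.eq.mp hn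
  choose c hc using h1
  have hcauchy : ∀ {m n : ℕ}, m ≤ n → c m ≡ c n [SMOD (I ^ m • ⊤ : Submodule A A)] := by
    intro m n hmn
    rw [SModEq.sub_mem, smul_eq_mul, Ideal.mul_top]
    obtain ⟨j, h1, h2⟩ := ((hc m).and (hc n)).exists
    have : c m - c n = (a j - c n) - (a j - c m) := by ring
    rw [this]
    exact Ideal.sub_mem _ (Ideal.pow_le_pow_right hmn h2) h1
  obtain ⟨L, hL⟩ := IsPrecomplete.prec ‹IsPrecomplete I A› hcauchy
  refine ⟨L, fun k => ?_⟩
  have hk := hL k
  rw [SModEq.sub_mem, smul_eq_mul, Ideal.mul_top] at hk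
  filter_upwards [hc k] with n hn
  have : a n - L = (a n - c k) + (c k - L) := by ring
  rw [this]; exact Ideal.add_mem _ hn hk

end Ulim

section UlimHom

variable {A : Type*} [CommRing A] (I : Ideal A)

/-- The ring `A` is `I`-adically complete with finite quotients `A ⧸ I ^ k`. -/
structure IsProfiniteAdic : Prop where
  haus : IsHausdorff I A
  prec : IsPrecomplete I A
  fin : ∀ k : ℕ, Finite (A ⧸ I ^ k)

variable {I}

/-- The limit of a sequence along the hyperfilter. -/
noncomputable def ulim (h : IsProfiniteAdic I) (a : ℕ → A) : A :=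
  (haveI := h.prec; exists_isUlim (𝔉 := hyperfilter ℕ) h.fin a).choose

theorem isUlim_ulim (h : IsProfiniteAdic I) (a : ℕ → A) :
    IsUlim I (hyperfilter ℕ) a (ulim h a) :=
  (haveI := h.prec; exists_isUlim (𝔉 := hyperfilter ℕ) h.fin a).choose_spec

theorem IsUlim.eq_ulim (h : IsProfiniteAdic I) {a : ℕ → A} {L : A}
    (ha : IsUlim I (hyperfilter ℕ) a L) : ulim h a = L :=
  haveI := h.haus
  (isUlim_ulim h a).unique ha

theorem ulim_const (h : IsProfiniteAdic I) (c : A) : ulim h (fun _ => c) = c :=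
  (IsUlim.const c).eq_ulim h

theorem ulim_eq_zero_of_mem_pow (h : IsProfiniteAdic I) {a : ℕ → A} (ha : ∀ n, a n ∈ I ^ n) :
    ulim h a = 0 :=
  (isUlim_zero_of_mem_pow ha).eq_ulim h

theorem ulim_congr_of_mem_pow (h : IsProfiniteAdic I) {a b : ℕ → A}
    (hab : ∀ n, a n - b n ∈ I ^ n) : ulim h a = ulim h b :=
  (((isUlim_ulim h a).congr_of_mem_pow hab).eq_ulim h).symm

theorem ulim_add (h : IsProfiniteAdic I) (a b : ℕ → A) :
    ulim h (fun n => a n + b n) = ulim h a + ulim h b :=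
  ((isUlim_ulim h a).add (isUlim_ulim h b)).eq_ulim h

theorem ulim_sub (h : IsProfiniteAdic I) (a b : ℕ → A) :
    ulim h (fun n => a n - b n) = ulim h a - ulim h b :=
  ((isUlim_ulim h a).sub (isUlim_ulim h b)).eq_ulim h

theorem ulim_mul (h : IsProfiniteAdic I) (a b : ℕ → A) :
    ulim h (fun n => a n * b n) = ulim h a * ulim h b :=
  ((isUlim_ulim h a).mul (isUlim_ulim h b)).eq_ulim h

theorem ulim_sum (h : IsProfiniteAdic I) {ι : Type*} (s : Finset ι) (a : ι → ℕ → A) :
    ulim h (fun n => ∑ i ∈ s, a i n) = ∑ i ∈ s, ulim h (a i) :=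
  (IsUlim.sum s fun i _ => isUlim_ulim h (a i)).eq_ulim h

/-- Taking limits along the hyperfilter, as a ring homomorphism. -/
noncomputable def ulimHom (h : IsProfiniteAdic I) : (ℕ → A) →+* A where
  toFun a := ulim h a
  map_one' := ulim_const h 1
  map_mul' a b := ulim_mul h a b
  map_zero' := ulim_const h 0
  map_add' a b := ulim_add h a b

@[simp] theorem ulimHom_apply (h : IsProfiniteAdic I) (a : ℕ → A) : ulimHom h a = ulim h a := rfl

end UlimHom

end Fermat.Agent.S59.Patch.H967
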