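import Mathlib
import Fermat.Prelude.Def_Algebra_PatchingDatum
import Fermat.Agent.S53.AbstractCA

/-!
# Frames: modules which are free over `Λ/J` through an endomorphism `φ` of `Λ`
(helper967, row S59, piece PATCH)
-/

set_option autoImplicit false

namespace Fermat.Agent.S59.Patch.H967

open MvPowerSeries IsLocalRing

section VarIdeal

variable {𝒪 : Type} [CommRing 𝒪] {r : ℕ}

/-- The ideal generated by the variables. -/
noncomputable def varIdeal (𝒪 : Type) [CommRing 𝒪] (r : ℕ) : Ideal (MvPowerSeries (Fin r) 𝒪) :=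
  Ideal.span (Set.range (X : Fin r → MvPowerSeries (Fin r) 𝒪))

theorem X_mem_varIdeal (i : Fin r) : (X i : MvPowerSeries (Fin r) 𝒪) ∈ varIdeal 𝒪 r :=
  Ideal.subset_span ⟨i, rfl⟩

theorem sub_C_constantCoeff_mem_varIdeal (c : MvPowerSeries (Fin r) 𝒪) :
    c - C (constantCoeff c) ∈ varIdeal 𝒪 r := by
  have h := Fermat.Agent.S53.H173.mem_span_X_pow_of_coeff_eq_zero 1 (c - C (constantCoeff c)) ?_
  · simpa [varIdeal] using h
  · intro e he
    have he0 : e = 0 := by
      rw [← Finsupp.degree_eq_zero_iff]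
      omega
    subst he0
    simp

theorem constantCoeff_eq_zero_of_mem_varIdeal {c : MvPowerSeries (Fin r) 𝒪}
    (hc : c ∈ varIdeal 𝒪 r) : constantCoeff c = 0 := by
  have h1 : varIdeal 𝒪 r ≤ RingHom.ker (constantCoeff (σ := Fin r) (R := 𝒪)) := by
    rw [varIdeal, Ideal.span_le]
    rintro _ ⟨i, rfl⟩
    simp [RingHom.mem_ker]
  exact h1 hc

theorem mem_varIdeal_iff {c : MvPowerSeries (Fin r) 𝒪} :
    c ∈ varIdeal 𝒪 r ↔ constantCoeff c = 0 := by
  refine ⟨constantCoeff_eq_zero_of_mem_varIdeal, fun h => ?_⟩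
  have := sub_C_constantCoeff_mem_varIdeal c
  rwa [h, map_zero, sub_zero] at this

theorem exists_eq_sum_X_mul {c : MvPowerSeries (Fin r) 𝒪} (hc : constantCoeff c = 0) :
    ∃ w : Fin r → MvPowerSeries (Fin r) 𝒪, c = ∑ l, X l * w l := by
  have h := mem_varIdeal_iff.mpr hc
  rw [varIdeal, Ideal.mem_span_range_iff_exists_fun] at h
  obtain ⟨w, hw⟩ := h
  exact ⟨w, by rw [← hw]; exact Finset.sum_congr rfl fun l _ => mul_comm _ _⟩

end VarIdeal

section Chain

variable {A : Type*} [CommRing A] [IsLocalRing A] {X : Type*} [AddCommGroup X] [Module A X]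

/-- In a finite module `V` of cardinality at most `c` over a local ring, `𝔪 ^ c` kills `V`. -/
theorem maximalIdeal_pow_smul_top_eq_bot_of_card_le [Finite X] (c : ℕ) (hc : Nat.card X ≤ c) :
    maximalIdeal A ^ c • (⊤ : Submodule A X) = ⊥ := by
  have key : ∀ j : ℕ, maximalIdeal A ^ j • (⊤ : Submodule A X) = ⊥ ∨
      Nat.card (maximalIdeal A ^ j • (⊤ : Submodule A X) : Submodule A X) + j ≤ Nat.card X := by
    intro j
    induction j with
    | zero =>
      right
      simp only [pow_zero, Ideal.one_eq_top, Submodule.top_smul, add_zero]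
      exact le_of_eq (Nat.card_congr (Equiv.Set.univ X))
    | succ j ih =>
      rcases ih with h | h
      · left
        rw [pow_succ', Submodule.mul_smul, h, Submodule.smul_bot]
      · by_cases hbot : maximalIdeal A ^ j • (⊤ : Submodule A X) = ⊥
        · left
          rw [pow_succ', Submodule.mul_smul, hbot, Submodule.smul_bot]
        · right
          have hle : maximalIdeal A ^ (j + 1) • (⊤ : Submodule A X) ≤
              maximalIdeal A ^ j • (⊤ : Submodule A X) := by
            rw [pow_succ', Submodule.mul_smul]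
            exact Submodule.smul_le_right
          have hne : maximalIdeal A ^ (j + 1) • (⊤ : Submodule A X) ≠
              maximalIdeal A ^ j • (⊤ : Submodule A X) := by
            intro heq
            apply hbot
            have hfg : (maximalIdeal A ^ j • (⊤ : Submodule A X)).FG :=
              Module.Finite.iff_fg.mp Module.Finite.of_finite
            refine Submodule.eq_bot_of_le_smul_of_le_jacobson_bot (maximalIdeal A) _ hfg ?_
              (IsLocalRing.maximalIdeal_le_jacobson ⊥)
            rw [← Submodule.mul_smul, ← pow_succ', heq]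
          have hlt : ((maximalIdeal A ^ (j + 1) • (⊤ : Submodule A X) : Submodule A X) : Set X) ⊂
              ((maximalIdeal A ^ j • (⊤ : Submodule A X) : Submodule A X) : Set X) :=
            (SetLike.coe_ssubset_coe).mpr (lt_of_le_of_ne hle hne)
          have hcard := Set.ncard_lt_ncard hlt (Set.toFinite _)
          have e1 : Nat.card (maximalIdeal A ^ (j + 1) • (⊤ : Submodule A X) : Submodule A X) =
              ((maximalIdeal A ^ (j + 1) • (⊤ : Submodule A X) : Submodule A X) : Set X).ncard :=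
            Nat.card_coe_set_eq _
          have e2 : Nat.card (maximalIdeal A ^ j • (⊤ : Submodule A X) : Submodule A X) =
              ((maximalIdeal A ^ j • (⊤ : Submodule A X) : Submodule A X) : Set X).ncard :=
            Nat.card_coe_set_eq _
          omega
  rcases key c with h | h
  · exact h
  · exfalso
    have hpos : 0 < Nat.card (maximalIdeal A ^ c • (⊤ : Submodule A X) : Submodule A X) :=
      Nat.card_pos
    omega

/-- If `X ⧸ U` has at most `c` elements, then `𝔪 ^ c • X ≤ U`. -/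
theorem maximalIdeal_pow_smul_top_le_of_card_le (U : Submodule A X) [Finite (X ⧸ U)] (c : ℕ)
    (hc : Nat.card (X ⧸ U) ≤ c) : maximalIdeal A ^ c • (⊤ : Submodule A X) ≤ U := by
  have h := maximalIdeal_pow_smul_top_eq_bot_of_card_le (A := A) (X := X ⧸ U) c hc
  rw [Submodule.smul_le]
  intro a ha x _
  rw [← Submodule.Quotient.mk_eq_zero U, Submodule.Quotient.mk_smul]
  have h2 : a • (Submodule.Quotient.mk x : X ⧸ U) ∈
      maximalIdeal A ^ c • (⊤ : Submodule A (X ⧸ U)) :=
    Submodule.smul_mem_smul ha Submodule.mem_top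
  rw [h] at h2
  exact (Submodule.mem_bot A).mp h2

omit [IsLocalRing A] in
theorem pow_smul_top_le_pow_smul_top {I K : Ideal A}
    (h : I • (⊤ : Submodule A X) ≤ K • (⊤ : Submodule A X)) (k : ℕ) :
    I ^ k • (⊤ : Submodule A X) ≤ K ^ k • (⊤ : Submodule A X) := by
  induction k with
  | zero => simp
  | succ k ih =>
    calc I ^ (k + 1) • (⊤ : Submodule A X) = I ^ k • (I • (⊤ : Submodule A X)) := by
          rw [pow_succ, Submodule.mul_smul]
      _ ≤ I ^ k • (K • (⊤ : Submodule A X)) := Submodule.smul_mono le_rfl h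
      _ = K • (I ^ k • (⊤ : Submodule A X)) := by
          rw [← Submodule.mul_smul, ← Submodule.mul_smul, mul_comm]
      _ ≤ K • (K ^ k • (⊤ : Submodule A X)) := Submodule.smul_mono le_rfl ih
      _ = K ^ (k + 1) • (⊤ : Submodule A X) := by
          rw [← Submodule.mul_smul, ← pow_succ']

end Chain

section Frame

variable {𝒪 : Type} [CommRing 𝒪] {r : ℕ}
variable {N : Type} [AddCommGroup N] [Module (MvPowerSeries (Fin r) 𝒪) N]

/-- The `φ`-linear combination of the family `b` with coefficients `c`. -/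
noncomputable def comb (φ : MvPowerSeries (Fin r) 𝒪 →ₐ[𝒪] MvPowerSeries (Fin r) 𝒪) {d : ℕ} (b : Fin d → N)
    (c : Fin d → MvPowerSeries (Fin r) 𝒪) : N :=
  ∑ i, φ (c i) • b i

variable (φ : MvPowerSeries (Fin r) 𝒪 →ₐ[𝒪] MvPowerSeries (Fin r) 𝒪) {d : ℕ} (b : Fin d → N)

theorem comb_add (c c' : Fin d → MvPowerSeries (Fin r) 𝒪) :
    comb φ b (c + c') = comb φ b c + comb φ b c' := by
  simp only [comb, Pi.add_apply, map_add, add_smul, Finset.sum_add_distrib]

theorem comb_sub (c c' : Fin d → MvPowerSeries (Fin r) 𝒪) :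
    comb φ b (c - c') = comb φ b c - comb φ b c' := by
  simp only [comb, Pi.sub_apply, map_sub, sub_smul, Finset.sum_sub_distrib]

theorem comb_zero : comb φ b (0 : Fin d → MvPowerSeries (Fin r) 𝒪) = 0 := by
  simp [comb]

theorem comb_smul (f : MvPowerSeries (Fin r) 𝒪) (c : Fin d → MvPowerSeries (Fin r) 𝒪) :
    comb φ b (f • c) = φ f • comb φ b c := by
  simp only [comb, Pi.smul_apply, smul_eq_mul, map_mul, mul_smul, Finset.smul_sum]

theorem comb_single (j : Fin d) (f : MvPowerSeries (Fin r) 𝒪) :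
    comb φ b (Pi.single j f) = φ f • b j := by
  classical
  rw [comb, Finset.sum_eq_single j]
  · rw [Pi.single_eq_same]
  · intro i _ hij
    rw [Pi.single_eq_of_ne hij, map_zero, zero_smul]
  · intro h
    exact absurd (Finset.mem_univ j) h

theorem comb_vecMul {d' : ℕ} (c : Fin d' → MvPowerSeries (Fin r) 𝒪)
    (G : Matrix (Fin d') (Fin d) (MvPowerSeries (Fin r) 𝒪)) :
    comb φ b (Matrix.vecMul c G) = ∑ i, φ (c i) • comb φ b (G i) := by
  simp only [comb, Matrix.vecMul, dotProduct, map_sum, map_mul, Finset.sum_smul, mul_smul,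
    Finset.smul_sum]
  exact Finset.sum_comm

/-- `b` is a basis of `N` over `Λ/J`, where `Λ` acts through `φ`. -/
structure IsFrame (J : Ideal (MvPowerSeries (Fin r) 𝒪)) : Prop where
  span : ∀ x : N, ∃ c : Fin d → MvPowerSeries (Fin r) 𝒪, x = comb φ b c
  rel : ∀ c : Fin d → MvPowerSeries (Fin r) 𝒪, comb φ b c = 0 ↔ ∀ i, c i ∈ J

variable {φ b} {J : Ideal (MvPowerSeries (Fin r) 𝒪)}

theorem IsFrame.sub_mem (h : IsFrame φ b J) {c c' : Fin d → MvPowerSeries (Fin r) 𝒪}
    (hcc : comb φ b c = comb φ b c') (i : Fin d) : c i - c' i ∈ J := by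
  have h1 : comb φ b (c - c') = 0 := by rw [comb_sub, hcc, sub_self]
  exact (h.rel _).mp h1 i

/-- Change of frame by mutually inverse (rectangular) matrices. -/
theorem IsFrame.rebase (h : IsFrame φ b J) {d' : ℕ}
    (G : Matrix (Fin d') (Fin d) (MvPowerSeries (Fin r) 𝒪))
    (H : Matrix (Fin d) (Fin d') (MvPowerSeries (Fin r) 𝒪))
    (hGH : G * H = 1) (hHG : H * G = 1) :
    IsFrame φ (fun i => comb φ b (G i)) J := by
  have key : ∀ c : Fin d' → MvPowerSeries (Fin r) 𝒪,
      comb φ (fun i => comb φ b (G i)) c = comb φ b (Matrix.vecMul c G) := by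
    intro c
    rw [comb_vecMul]
    rfl
  refine ⟨fun x => ?_, fun c => ?_⟩
  · obtain ⟨c, rfl⟩ := h.span x
    refine ⟨Matrix.vecMul c H, ?_⟩
    rw [key, Matrix.vecMul_vecMul, hHG, Matrix.vecMul_one]
  · rw [key, h.rel]
    constructor
    · intro hc i
      have h1 : c = Matrix.vecMul (Matrix.vecMul c G) H := by
        rw [Matrix.vecMul_vecMul, hGH, Matrix.vecMul_one]
      rw [h1]
      simp only [Matrix.vecMul, dotProduct]
      exact Ideal.sum_mem _ fun l _ => Ideal.mul_mem_right _ _ (hc l)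
    · intro hc l
      simp only [Matrix.vecMul, dotProduct]
      exact Ideal.sum_mem _ fun i _ => Ideal.mul_mem_right _ _ (hc i)

theorem IsFrame.smul_comb (h : IsFrame φ b J)
    (A : MvPowerSeries (Fin r) 𝒪 → Matrix (Fin d) (Fin d) (MvPowerSeries (Fin r) 𝒪))
    (hA : ∀ f j, f • b j = comb φ b (fun i => A f i j))
    (f : MvPowerSeries (Fin r) 𝒪) (c : Fin d → MvPowerSeries (Fin r) 𝒪) :
    f • comb φ b c = comb φ b (Matrix.mulVec (A f) c) := by
  calc f • comb φ b c = ∑ j, φ (c j) • (f • b j) := by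
        unfold comb
        rw [Finset.smul_sum]
        exact Finset.sum_congr rfl fun j _ => smul_comm _ _ _
    _ = ∑ j, φ (c j) • comb φ b (fun i => A f i j) :=
        Finset.sum_congr rfl fun j _ => by rw [hA]
    _ = ∑ j, ∑ i, φ (A f i j * c j) • b i := by
        refine Finset.sum_congr rfl fun j _ => ?_
        unfold comb
        rw [Finset.smul_sum]
        refine Finset.sum_congr rfl fun i _ => ?_
        rw [map_mul, mul_smul]
        exact smul_comm _ _ _
    _ = ∑ i, ∑ j, φ (A f i j * c j) • b i := Finset.sum_comm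
    _ = comb φ b (Matrix.mulVec (A f) c) := by
        unfold comb
        refine Finset.sum_congr rfl fun i _ => ?_
        simp only [Matrix.mulVec, dotProduct, map_sum, Finset.sum_smul]

/-- Elements of `φ(I) N` have coordinates in `I`. -/
theorem IsFrame.exists_coords_of_mem_smul_top (h : IsFrame φ b J)
    (I : Ideal (MvPowerSeries (Fin r) 𝒪)) {x : N}
    (hx : x ∈ Ideal.map (φ : MvPowerSeries (Fin r) 𝒪 →+* MvPowerSeries (Fin r) 𝒪) I •
      (⊤ : Submodule (MvPowerSeries (Fin r) 𝒪) N)) :
    ∃ c : Fin d → MvPowerSeries (Fin r) 𝒪, (∀ i, c i ∈ I) ∧ x = comb φ b c := by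
  -- choose a coordinate matrix for the action
  have hex : ∀ (f : MvPowerSeries (Fin r) 𝒪) (j : Fin d),
      ∃ c : Fin d → MvPowerSeries (Fin r) 𝒪, f • b j = comb φ b c := fun f j => h.span _
  choose A' hA' using hex
  have hA : ∀ f j, f • b j = comb φ b (fun i => (Matrix.of fun i j => A' f j i) i j) :=
    fun f j => hA' f j
  have hsm := h.smul_comb (Matrix.of fun i j => A' · j i) hA
  -- the set of elements with coordinates in `I` is stable under everything
  have hadd : ∀ x y : N,
      (∃ c : Fin d → MvPowerSeries (Fin r) 𝒪, (∀ i, c i ∈ I) ∧ x = comb φ b c) →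
      (∃ c : Fin d → MvPowerSeries (Fin r) 𝒪, (∀ i, c i ∈ I) ∧ y = comb φ b c) →
      ∃ c : Fin d → MvPowerSeries (Fin r) 𝒪, (∀ i, c i ∈ I) ∧ x + y = comb φ b c := by
    rintro x y ⟨c, hc, rfl⟩ ⟨c', hc', rfl⟩
    exact ⟨c + c', fun i => Ideal.add_mem _ (hc i) (hc' i), (comb_add φ b c c').symm⟩
  have hmem : ∀ a ∈ Ideal.map (φ : MvPowerSeries (Fin r) 𝒪 →+* MvPowerSeries (Fin r) 𝒪) I,
      ∀ n : N, ∃ c : Fin d → MvPowerSeries (Fin r) 𝒪, (∀ i, c i ∈ I) ∧ a • n = comb φ b c := by
    intro a ha
    refine Submodule.span_induction (p := fun a _ => ∀ n : N,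
      ∃ c : Fin d → MvPowerSeries (Fin r) 𝒪, (∀ i, c i ∈ I) ∧ a • n = comb φ b c)
      ?_ ?_ ?_ ?_ ha
    · rintro _ ⟨e, he, rfl⟩ n
      obtain ⟨c, rfl⟩ := h.span n
      refine ⟨e • c, fun i => Ideal.mul_mem_right _ _ he, ?_⟩
      rw [comb_smul]
      rfl
    · intro n
      exact ⟨0, fun i => Ideal.zero_mem _, by rw [zero_smul, comb_zero]⟩
    · intro a a' _ _ iha iha' n
      rw [add_smul]
      exact hadd _ _ (iha n) (iha' n)
    · intro g a _ iha n
      rw [smul_eq_mul, mul_comm, mul_smul]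
      exact iha (g • n)
  exact Submodule.smul_induction_on hx (fun a ha n _ => hmem a ha n) hadd

end Frame

end Fermat.Agent.S59.Patch.H967
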