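import Mathlib
import Fermat.Prelude.Def_Algebra_PatchingDatum
import Fermat.Agent.S59.Patch.H967.Frame

/-!
# Coordinates of a patching level (helper967, row S59, piece PATCH)

From a patching level we extract, relative to a fixed `𝒪`-basis `μ` of `M`, the matrices of the
action of the power series ring on the level module, together with their (approximate)
algebraic properties and a uniform continuity estimate.
-/

set_option autoImplicit false

namespace Fermat.Agent.S59.Patch.H967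

open MvPowerSeries IsLocalRing

section OBasis

variable (𝒪 : Type) [CommRing 𝒪] (R : Type) [CommRing R] [Algebra 𝒪 R]
  {M : Type} [AddCommGroup M] [Module R M]

/-- `μ` is a basis of `M` over `𝒪` (acting through `R`). -/
structure IsOBasis {d : ℕ} (μ : Fin d → M) : Prop where
  span : ∀ m : M, ∃ a : Fin d → 𝒪, m = ∑ i, algebraMap 𝒪 R (a i) • μ i
  indep : ∀ a : Fin d → 𝒪, ∑ i, algebraMap 𝒪 R (a i) • μ i = 0 → ∀ i, a i = 0

variable {𝒪 R}

theorem IsOBasis.mul_eq_one {d d' : ℕ} {μ : Fin d → M} {m : Fin d' → M}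
    (hμ : IsOBasis 𝒪 R μ) (g : Matrix (Fin d) (Fin d') 𝒪) (h : Matrix (Fin d') (Fin d) 𝒪)
    (hg : ∀ i, μ i = ∑ j, algebraMap 𝒪 R (g i j) • m j)
    (hh : ∀ j, m j = ∑ i, algebraMap 𝒪 R (h j i) • μ i) : g * h = 1 := by
  classical
  ext i i'
  have h1 : ∑ l, algebraMap 𝒪 R ((g * h) i l) • μ l = μ i := by
    conv_rhs => rw [hg i]
    simp only [Matrix.mul_apply, map_sum, map_mul, Finset.sum_smul, mul_smul]
    rw [Finset.sum_comm]
    refine Finset.sum_congr rfl fun j _ => ?_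
    conv_rhs => rw [hh j, Finset.smul_sum]
  have h2 : ∑ l, algebraMap 𝒪 R ((1 : Matrix (Fin d) (Fin d) 𝒪) i l) • μ l = μ i := by
    rw [Finset.sum_eq_single i]
    · simp
    · intro l _ hl
      rw [Matrix.one_apply_ne (Ne.symm hl), map_zero, zero_smul]
    · intro hi
      exact absurd (Finset.mem_univ i) hi
  have h3 := hμ.indep (fun l => (g * h) i l - (1 : Matrix (Fin d) (Fin d) 𝒪) i l) (by
    simp only [map_sub, sub_smul, Finset.sum_sub_distrib]
    rw [h1, h2, sub_self]) i'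
  exact sub_eq_zero.mp h3

theorem IsOBasis.exists_transition {d d' : ℕ} {μ : Fin d → M} {m : Fin d' → M}
    (hμ : IsOBasis 𝒪 R μ) (hm : IsOBasis 𝒪 R m) :
    ∃ (g : Matrix (Fin d) (Fin d') 𝒪) (h : Matrix (Fin d') (Fin d) 𝒪), g * h = 1 ∧ h * g = 1 ∧
      ∀ i, μ i = ∑ j, algebraMap 𝒪 R (g i j) • m j := by
  have h1 : ∀ i, ∃ a : Fin d' → 𝒪, μ i = ∑ j, algebraMap 𝒪 R (a j) • m j := fun i => hm.span _
  have h2 : ∀ j, ∃ a : Fin d → 𝒪, m j = ∑ i, algebraMap 𝒪 R (a i) • μ i := fun j => hμ.span _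
  choose g hg using h1
  choose h hh using h2
  exact ⟨Matrix.of g, Matrix.of h, hμ.mul_eq_one _ _ hg hh, hm.mul_eq_one _ _ hh hg, hg⟩

end OBasis

section Level

variable {𝒪 : Type} [CommRing 𝒪] {r : ℕ} {R : Type} [CommRing R] [Algebra 𝒪 R]
  {M : Type} [AddCommGroup M] [Module R M] {J : Ideal (MvPowerSeries (Fin r) 𝒪)}

theorem level_isFrame (L : Algebra.PatchingLevel 𝒪 r R M J) : IsFrame L.φ L.b J :=
  ⟨L.b_span, L.b_rel⟩

theorem level_psi_phi (L : Algebra.PatchingLevel 𝒪 r R M J) (c : MvPowerSeries (Fin r) 𝒪) :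
    L.ψ (L.φ c) = algebraMap 𝒪 R (constantCoeff c) := by
  have h1 : varIdeal 𝒪 r ≤ RingHom.ker
      ((L.ψ : MvPowerSeries (Fin r) 𝒪 →+* R).comp
        (L.φ : MvPowerSeries (Fin r) 𝒪 →+* MvPowerSeries (Fin r) 𝒪)) := by
    rw [varIdeal, Ideal.span_le]
    rintro _ ⟨i, rfl⟩
    simp [RingHom.mem_ker, L.ψ_φ_X i]
  have h2 := h1 (sub_C_constantCoeff_mem_varIdeal c)
  rw [RingHom.mem_ker, map_sub, sub_eq_zero] at h2
  have h3 : (C (constantCoeff c) : MvPowerSeries (Fin r) 𝒪) =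
      algebraMap 𝒪 (MvPowerSeries (Fin r) 𝒪) (constantCoeff c) := rfl
  simp only [RingHom.comp_apply, RingHom.coe_coe] at h2
  rw [h2, h3, AlgHom.commutes, AlgHom.commutes]

theorem level_pi_comb (L : Algebra.PatchingLevel 𝒪 r R M J) {d' : ℕ} (b' : Fin d' → L.N)
    (c : Fin d' → MvPowerSeries (Fin r) 𝒪) :
    L.π (comb L.φ b' c) = ∑ i, algebraMap 𝒪 R (constantCoeff (c i)) • L.π (b' i) := by
  rw [comb, map_sum]
  refine Finset.sum_congr rfl fun i _ => ?_
  rw [L.π_smul, level_psi_phi]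

theorem level_span_eq (L : Algebra.PatchingLevel 𝒪 r R M J) :
    Ideal.span (Set.range fun i : Fin r => L.φ (X i)) =
      Ideal.map (L.φ : MvPowerSeries (Fin r) 𝒪 →+* MvPowerSeries (Fin r) 𝒪) (varIdeal 𝒪 r) := by
  rw [varIdeal, Ideal.map_span, ← Set.range_comp]
  rfl

theorem level_isOBasis (L : Algebra.PatchingLevel 𝒪 r R M J) (hJ : J ≤ varIdeal 𝒪 r) :
    IsOBasis 𝒪 R (fun i => L.π (L.b i)) where
  span m := by
    obtain ⟨x, rfl⟩ := L.π_surjective m
    obtain ⟨c, hc⟩ := (level_isFrame L).span x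
    exact ⟨fun i => constantCoeff (c i), by rw [hc, level_pi_comb]⟩
  indep a ha i := by
    have h1 : L.π (comb L.φ L.b (fun i => C (a i))) = 0 := by
      rw [level_pi_comb, ← ha]
      refine Finset.sum_congr rfl fun i _ => ?_
      simp
    rw [L.ker_π, level_span_eq] at h1
    obtain ⟨c, hcI, hc⟩ := (level_isFrame L).exists_coords_of_mem_smul_top _ h1
    have h2 := hJ ((level_isFrame L).sub_mem hc i)
    have h3 := constantCoeff_eq_zero_of_mem_varIdeal h2
    have h4 := constantCoeff_eq_zero_of_mem_varIdeal (hcI i)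
    rw [map_sub, h4, sub_zero] at h3
    simpa using h3

end Level

end Fermat.Agent.S59.Patch.H967
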