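import Mathlib
import Fermat.Prelude.Def_Algebra_PatchingDatum
import Fermat.Agent.S59.Patch.H967.Level

/-!
# Coordinate data of a patching level (helper967, row S59, piece PATCH)
-/

set_option autoImplicit false

namespace Fermat.Agent.S59.Patch.H967

open MvPowerSeries IsLocalRing

/-- The coordinate description of a patching level with respect to a fixed basis `μ` of `M`:
the two algebra maps and the matrices `A f` of the action of `f` on the level module, which
form a ring homomorphism modulo `J`. -/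
structure CoordData (𝒪 : Type) [CommRing 𝒪] [IsLocalRing 𝒪] (r : ℕ) (R : Type) [CommRing R]
    [Algebra 𝒪 R] {M : Type} [AddCommGroup M] [Module R M] {d : ℕ} (μ : Fin d → M)
    (J : Ideal (MvPowerSeries (Fin r) 𝒪)) (E : ℕ) where
  φ : MvPowerSeries (Fin r) 𝒪 →ₐ[𝒪] MvPowerSeries (Fin r) 𝒪
  ψ : MvPowerSeries (Fin r) 𝒪 →ₐ[𝒪] R
  A : MvPowerSeries (Fin r) 𝒪 → Matrix (Fin d) (Fin d) (MvPowerSeries (Fin r) 𝒪)
  ψ_surjective : Function.Surjective ψ
  ψ_φ_X : ∀ i : Fin r, ψ (φ (X i)) = 0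
  A_add : ∀ f g i j, A (f + g) i j - (A f i j + A g i j) ∈ J
  A_mul : ∀ f g i j, A (f * g) i j - (A f * A g) i j ∈ J
  A_one : ∀ i j, A 1 i j - (1 : Matrix (Fin d) (Fin d) (MvPowerSeries (Fin r) 𝒪)) i j ∈ J
  A_φ : ∀ c i j, A (φ c) i j -
    (c • (1 : Matrix (Fin d) (Fin d) (MvPowerSeries (Fin r) 𝒪))) i j ∈ J
  A_π : ∀ f j, ∑ i, algebraMap 𝒪 R (constantCoeff (A f i j)) • μ i = ψ f • μ j
  A_small : ∀ k g, g ∈ maximalIdeal (MvPowerSeries (Fin r) 𝒪) ^ (E * k) →
    ∀ i j, A g i j ∈ maximalIdeal (MvPowerSeries (Fin r) 𝒪) ^ k ⊔ J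

section Exists

variable {𝒪 : Type} [CommRing 𝒪] [IsLocalRing 𝒪] [Finite (ResidueField 𝒪)]
  {r : ℕ} {R : Type} [CommRing R] [Algebra 𝒪 R]
  {M : Type} [AddCommGroup M] [Module R M] {J : Ideal (MvPowerSeries (Fin r) 𝒪)}

/-- The uniform continuity estimate for a frame. -/
theorem IsFrame.pow_smul_top_le {N : Type} [AddCommGroup N] [Module (MvPowerSeries (Fin r) 𝒪) N]
    {φ : MvPowerSeries (Fin r) 𝒪 →ₐ[𝒪] MvPowerSeries (Fin r) 𝒪} {d : ℕ} {b : Fin d → N}
    (h : IsFrame φ b J) (k : ℕ) :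
    maximalIdeal (MvPowerSeries (Fin r) 𝒪) ^ (Nat.card (Fin d → ResidueField 𝒪) * k) •
        (⊤ : Submodule (MvPowerSeries (Fin r) 𝒪) N) ≤
      Ideal.map (φ : MvPowerSeries (Fin r) 𝒪 →+* MvPowerSeries (Fin r) 𝒪)
        (maximalIdeal (MvPowerSeries (Fin r) 𝒪) ^ k) •
        (⊤ : Submodule (MvPowerSeries (Fin r) 𝒪) N) := by
  classical
  set U : Submodule (MvPowerSeries (Fin r) 𝒪) N :=
    Ideal.map (φ : MvPowerSeries (Fin r) 𝒪 →+* MvPowerSeries (Fin r) 𝒪)
        (maximalIdeal (MvPowerSeries (Fin r) 𝒪)) •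
        (⊤ : Submodule (MvPowerSeries (Fin r) 𝒪) N) with hU
  -- a section of the residue map
  have hs : Function.Surjective (IsLocalRing.residue 𝒪) := IsLocalRing.residue_surjective
  let s : ResidueField 𝒪 → 𝒪 := Function.surjInv hs
  have hss : ∀ t, IsLocalRing.residue 𝒪 (s t) = t := Function.surjInv_eq hs
  let F : (Fin d → ResidueField 𝒪) → N ⧸ U := fun t =>
    Submodule.Quotient.mk (comb φ b (fun i => C (s (t i))))
  have hF : Function.Surjective F := by
    intro y
    obtain ⟨x, rfl⟩ := Submodule.Quotient.mk_surjective U y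
    obtain ⟨c, rfl⟩ := h.span x
    refine ⟨fun i => IsLocalRing.residue 𝒪 (constantCoeff (c i)), ?_⟩
    show Submodule.Quotient.mk _ = Submodule.Quotient.mk _
    rw [Submodule.Quotient.eq, ← comb_sub]
    unfold comb
    refine Submodule.sum_mem _ fun i _ => ?_
    refine Submodule.smul_mem_smul (Ideal.mem_map_of_mem _ ?_) Submodule.mem_top
    rw [Pi.sub_apply, Fermat.Agent.S53.H173.mem_maximalIdeal_iff_constantCoeff, map_sub,
      constantCoeff_C, ← IsLocalRing.residue_eq_zero_iff, map_sub, hss, sub_self]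
  haveI : Finite (N ⧸ U) := Finite.of_surjective F hF
  have hcard : Nat.card (N ⧸ U) ≤ Nat.card (Fin d → ResidueField 𝒪) :=
    Nat.card_le_card_of_surjective F hF
  haveI : Module.Finite (MvPowerSeries (Fin r) 𝒪) N := by
    refine ⟨⟨Finset.univ.image b, ?_⟩⟩
    rw [eq_top_iff]
    intro x _
    obtain ⟨c, rfl⟩ := h.span x
    unfold comb
    refine Submodule.sum_mem _ fun i _ => Submodule.smul_mem _ _ (Submodule.subset_span ?_)
    simp
  have h1 := maximalIdeal_pow_smul_top_le_of_card_le U _ hcard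
  have h2 := pow_smul_top_le_pow_smul_top h1 k
  rw [← pow_mul, ← Ideal.map_pow] at h2
  exact h2

/-- Existence of coordinate data for a patching level. -/
theorem exists_coordData (L : Algebra.PatchingLevel 𝒪 r R M J) (hJ : J ≤ varIdeal 𝒪 r)
    {d : ℕ} {μ : Fin d → M} (hμ : IsOBasis 𝒪 R μ) :
    Nonempty (CoordData 𝒪 r R μ J (Nat.card (Fin d → ResidueField 𝒪))) := by
  classical
  obtain ⟨g, h, hgh, hhg, hg⟩ := hμ.exists_transition (level_isOBasis L hJ)
  -- the matrices over the power series ring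
  set G : Matrix (Fin d) (Fin L.d) (MvPowerSeries (Fin r) 𝒪) :=
    g.map (C : 𝒪 →+* MvPowerSeries (Fin r) 𝒪) with hG
  set H : Matrix (Fin L.d) (Fin d) (MvPowerSeries (Fin r) 𝒪) :=
    h.map (C : 𝒪 →+* MvPowerSeries (Fin r) 𝒪) with hH
  have hGH : G * H = 1 := by
    rw [hG, hH, ← Matrix.map_mul, hgh, Matrix.map_one _ (map_zero _) (map_one _)]
  have hHG : H * G = 1 := by
    rw [hG, hH, ← Matrix.map_mul, hhg, Matrix.map_one _ (map_zero _) (map_one _)]
  set b' : Fin d → L.N := fun i => comb L.φ L.b (G i) with hb'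
  have hfr : IsFrame L.φ b' J := (level_isFrame L).rebase G H hGH hHG
  have hπb : ∀ i, L.π (b' i) = μ i := by
    intro i
    rw [hb', level_pi_comb, hg i]
    refine Finset.sum_congr rfl fun j _ => ?_
    simp [hG]
  have hπc : ∀ c : Fin d → MvPowerSeries (Fin r) 𝒪,
      L.π (comb L.φ b' c) = ∑ i, algebraMap 𝒪 R (constantCoeff (c i)) • μ i := by
    intro c
    rw [level_pi_comb]
    exact Finset.sum_congr rfl fun i _ => by rw [hπb]
  -- the coordinate matrices
  have hex : ∀ (f : MvPowerSeries (Fin r) 𝒪) (j : Fin d),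
      ∃ c : Fin d → MvPowerSeries (Fin r) 𝒪, f • b' j = comb L.φ b' c := fun f j => hfr.span _
  choose A' hA' using hex
  set A : MvPowerSeries (Fin r) 𝒪 → Matrix (Fin d) (Fin d) (MvPowerSeries (Fin r) 𝒪) :=
    fun f => Matrix.of fun i j => A' f j i with hAdef
  have hA : ∀ f j, f • b' j = comb L.φ b' (fun i => A f i j) := fun f j => hA' f j
  have hsm := hfr.smul_comb A hA
  refine ⟨{ φ := L.φ, ψ := L.ψ, A := A, ψ_surjective := L.ψ_surjective, ψ_φ_X := L.ψ_φ_X,
            A_add := ?_, A_mul := ?_, A_one := ?_, A_φ := ?_, A_π := ?_, A_small := ?_ }⟩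
  · intro f g' i j
    refine hfr.sub_mem (c := fun i => A (f + g') i j) (c' := fun i => A f i j + A g' i j) ?_ i
    rw [← hA, add_smul, hA, hA, ← comb_add]
    rfl
  · intro f g' i j
    refine hfr.sub_mem (c := fun i => A (f * g') i j) (c' := fun i => (A f * A g') i j) ?_ i
    rw [← hA, mul_smul, hA g', hsm]
    rfl
  · intro i j
    refine hfr.sub_mem (c := fun i => A 1 i j)
      (c' := fun i => (1 : Matrix (Fin d) (Fin d) (MvPowerSeries (Fin r) 𝒪)) i j) ?_ i
    rw [← hA, one_smul]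
    have h1 : (fun i => (1 : Matrix (Fin d) (Fin d) (MvPowerSeries (Fin r) 𝒪)) i j) =
        Pi.single j 1 := by
      funext i
      rw [Matrix.one_apply, Pi.single_apply]
    rw [h1, comb_single, map_one, one_smul]
  · intro c i j
    refine hfr.sub_mem (c := fun i => A (L.φ c) i j)
      (c' := fun i => (c • (1 : Matrix (Fin d) (Fin d) (MvPowerSeries (Fin r) 𝒪))) i j) ?_ i
    rw [← hA]
    have h1 : (fun i => (c • (1 : Matrix (Fin d) (Fin d) (MvPowerSeries (Fin r) 𝒪))) i j) =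
        Pi.single j c := by
      funext i
      rw [Matrix.smul_apply, Matrix.one_apply, Pi.single_apply, smul_eq_mul, mul_ite, mul_one,
        mul_zero]
    rw [h1, comb_single]
  · intro f j
    rw [← hπc, ← hA, L.π_smul, hπb]
  · intro k g' hg' i j
    have h1 : g' • b' j ∈
        maximalIdeal (MvPowerSeries (Fin r) 𝒪) ^ (Nat.card (Fin d → ResidueField 𝒪) * k) •
          (⊤ : Submodule (MvPowerSeries (Fin r) 𝒪) L.N) :=
      Submodule.smul_mem_smul hg' Submodule.mem_top
    obtain ⟨c, hcI, hc⟩ := hfr.exists_coords_of_mem_smul_top _ (hfr.pow_smul_top_le k h1)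
    have h2 := hfr.sub_mem (c := fun i => A g' i j) (c' := c) (by rw [← hA, hc]) i
    have h3 : A g' i j = c i + (A g' i j - c i) := by ring
    rw [h3]
    exact Submodule.add_mem_sup (hcI i) h2

end Exists

end Fermat.Agent.S59.Patch.H967
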