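import Mathlib
import Fermat.Prelude.Def_Algebra_PatchingDatum
import Fermat.Agent.S59.Patch.H967.Level

/-!
# From exact coordinate data to a patching level with trivial relation ideal
(helper967, row S59, piece PATCH)
-/

set_option autoImplicit false

namespace Fermat.Agent.S59.Patch.H967

open MvPowerSeries IsLocalRing

/-- Exact coordinate data: the matrices `A f` form a ring homomorphism. -/
structure ExactData (𝒪 : Type) [CommRing 𝒪] (r : ℕ) (R : Type) [CommRing R]
    [Algebra 𝒪 R] {M : Type} [AddCommGroup M] [Module R M] {d : ℕ} (μ : Fin d → M) where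
  φ : MvPowerSeries (Fin r) 𝒪 →ₐ[𝒪] MvPowerSeries (Fin r) 𝒪
  ψ : MvPowerSeries (Fin r) 𝒪 →ₐ[𝒪] R
  A : MvPowerSeries (Fin r) 𝒪 →+* Matrix (Fin d) (Fin d) (MvPowerSeries (Fin r) 𝒪)
  ψ_surjective : Function.Surjective ψ
  ψ_φ_X : ∀ i : Fin r, ψ (φ (X i)) = 0
  A_φ : ∀ c, A (φ c) = c • (1 : Matrix (Fin d) (Fin d) (MvPowerSeries (Fin r) 𝒪))
  A_π : ∀ f j, ∑ i, algebraMap 𝒪 R (constantCoeff (A f i j)) • μ i = ψ f • μ j

/-- The underlying type of the limit module. -/
def LimN (𝒪 : Type) [CommRing 𝒪] (r d : ℕ) : Type := Fin d → MvPowerSeries (Fin r) 𝒪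

/-- The identity, viewed as a map into the limit module. -/
def LimN.of {𝒪 : Type} [CommRing 𝒪] {r d : ℕ} (v : Fin d → MvPowerSeries (Fin r) 𝒪) :
    LimN 𝒪 r d := v

noncomputable instance instAddCommGroupLimN (𝒪 : Type) [CommRing 𝒪] (r d : ℕ) :
    AddCommGroup (LimN 𝒪 r d) :=
  inferInstanceAs (AddCommGroup (Fin d → MvPowerSeries (Fin r) 𝒪))

section ToLevel

variable {𝒪 : Type} [CommRing 𝒪] {r : ℕ} {R : Type} [CommRing R] [Algebra 𝒪 R]
  {M : Type} [AddCommGroup M] [Module R M] {d : ℕ} {μ : Fin d → M}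

section MulVec

variable (A : MvPowerSeries (Fin r) 𝒪 →+* Matrix (Fin d) (Fin d) (MvPowerSeries (Fin r) 𝒪))

theorem mv_one (v : Fin d → MvPowerSeries (Fin r) 𝒪) : Matrix.mulVec (A 1) v = v := by
  rw [map_one, Matrix.one_mulVec]

theorem mv_mul (f g : MvPowerSeries (Fin r) 𝒪) (v : Fin d → MvPowerSeries (Fin r) 𝒪) :
    Matrix.mulVec (A (f * g)) v = Matrix.mulVec (A f) (Matrix.mulVec (A g) v) := by
  rw [map_mul, Matrix.mulVec_mulVec]

theorem mv_add (f g : MvPowerSeries (Fin r) 𝒪) (v : Fin d → MvPowerSeries (Fin r) 𝒪) :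
    Matrix.mulVec (A (f + g)) v = Matrix.mulVec (A f) v + Matrix.mulVec (A g) v := by
  rw [map_add, Matrix.add_mulVec]

theorem mv_zero (v : Fin d → MvPowerSeries (Fin r) 𝒪) : Matrix.mulVec (A 0) v = 0 := by
  rw [map_zero, Matrix.zero_mulVec]

/-- The module structure on the limit module given by a matrix representation. -/
@[reducible] noncomputable def limModule : Module (MvPowerSeries (Fin r) 𝒪) (LimN 𝒪 r d) where
  smul f v := Matrix.mulVec (A f) v
  one_smul v := mv_one A v
  mul_smul f g v := mv_mul A f g v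
  smul_zero f := Matrix.mulVec_zero (A f)
  smul_add f v w := Matrix.mulVec_add (A f) v w
  add_smul f g v := mv_add A f g v
  zero_smul v := mv_zero A v

end MulVec

/-- The projection of the limit module onto `M`. -/
noncomputable def limPi (𝒪 : Type) [CommRing 𝒪] (r : ℕ) (R : Type) [CommRing R] [Algebra 𝒪 R]
    {M : Type} [AddCommGroup M] [Module R M] {d : ℕ} (μ : Fin d → M) :
    (Fin d → MvPowerSeries (Fin r) 𝒪) →+ M where
  toFun v := ∑ i, algebraMap 𝒪 R (constantCoeff (v i)) • μ i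
  map_zero' := by
    show ∑ i, algebraMap 𝒪 R (constantCoeff ((0 : Fin d → MvPowerSeries (Fin r) 𝒪) i)) • μ i = 0
    refine Finset.sum_eq_zero fun i _ => ?_
    rw [Pi.zero_apply, map_zero, map_zero, zero_smul]
  map_add' v w := by
    show ∑ i, algebraMap 𝒪 R (constantCoeff ((v + w) i)) • μ i =
      ∑ i, algebraMap 𝒪 R (constantCoeff (v i)) • μ i +
        ∑ i, algebraMap 𝒪 R (constantCoeff (w i)) • μ i
    rw [← Finset.sum_add_distrib]
    refine Finset.sum_congr rfl fun i _ => ?_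
    rw [Pi.add_apply, map_add, map_add, add_smul]

theorem limPi_apply (v : Fin d → MvPowerSeries (Fin r) 𝒪) :
    limPi 𝒪 r R μ v = ∑ i, algebraMap 𝒪 R (constantCoeff (v i)) • μ i := rfl

variable (D : ExactData 𝒪 r R μ)

theorem limPi_mulVec (f : MvPowerSeries (Fin r) 𝒪) (v : Fin d → MvPowerSeries (Fin r) 𝒪) :
    limPi 𝒪 r R μ (Matrix.mulVec (D.A f) v) = D.ψ f • limPi 𝒪 r R μ v := by
  rw [limPi_apply, limPi_apply, Finset.smul_sum]
  have h1 : ∀ i, algebraMap 𝒪 R (constantCoeff (Matrix.mulVec (D.A f) v i)) • μ i =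
      ∑ j, algebraMap 𝒪 R (constantCoeff (v j)) •
        (algebraMap 𝒪 R (constantCoeff (D.A f i j)) • μ i) := by
    intro i
    simp only [Matrix.mulVec, dotProduct, map_sum, map_mul, Finset.sum_smul, mul_smul]
    exact Finset.sum_congr rfl fun j _ => smul_comm _ _ _
  simp only [h1]
  rw [Finset.sum_comm]
  refine Finset.sum_congr rfl fun j _ => ?_
  rw [← Finset.smul_sum, D.A_π, smul_comm]

theorem mulVec_phi (c : MvPowerSeries (Fin r) 𝒪) (v : Fin d → MvPowerSeries (Fin r) 𝒪) :
    Matrix.mulVec (D.A (D.φ c)) v = c • v := by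
  rw [D.A_φ, Matrix.smul_mulVec, Matrix.one_mulVec]

theorem sum_mulVec_phi_single (c : Fin d → MvPowerSeries (Fin r) 𝒪) :
    ∑ i, Matrix.mulVec (D.A (D.φ (c i)))
      (Pi.single i 1 : Fin d → MvPowerSeries (Fin r) 𝒪) = c := by
  classical
  have h1 : ∀ i, Matrix.mulVec (D.A (D.φ (c i)))
      (Pi.single i 1 : Fin d → MvPowerSeries (Fin r) 𝒪) = Pi.single i (c i) := by
    intro i
    rw [mulVec_phi]
    funext j
    by_cases hij : j = i
    · subst hij
      rw [Pi.smul_apply, Pi.single_eq_same, Pi.single_eq_same, smul_eq_mul, mul_one]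
    · rw [Pi.smul_apply, Pi.single_eq_of_ne hij, Pi.single_eq_of_ne hij, smul_zero]
  simp only [h1]
  exact Finset.univ_sum_single c

theorem eq_sum_mulVec_phi_X {x : Fin d → MvPowerSeries (Fin r) 𝒪}
    (hx : ∀ i, constantCoeff (x i) = 0) :
    ∃ w : Fin r → Fin d → MvPowerSeries (Fin r) 𝒪,
      x = ∑ l, Matrix.mulVec (D.A (D.φ (X l))) (w l) := by
  have hw : ∀ i, ∃ w : Fin r → MvPowerSeries (Fin r) 𝒪, x i = ∑ l, X l * w l :=
    fun i => exists_eq_sum_X_mul (hx i)
  choose w hw using hw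
  refine ⟨fun l i => w i l, ?_⟩
  funext i
  rw [hw i, Finset.sum_apply]
  refine Finset.sum_congr rfl fun l _ => ?_
  rw [mulVec_phi]
  rfl

theorem psi_eq_zero_of_mem_span {a : MvPowerSeries (Fin r) 𝒪}
    (ha : a ∈ Ideal.span (Set.range fun i : Fin r => D.φ (X i))) : D.ψ a = 0 := by
  have h1 : Ideal.span (Set.range fun i : Fin r => D.φ (X i)) ≤
      RingHom.ker (D.ψ : MvPowerSeries (Fin r) 𝒪 →+* R) := by
    rw [Ideal.span_le]
    rintro _ ⟨i, rfl⟩
    exact D.ψ_φ_X i
  exact h1 ha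

/-- The patching level with trivial relation ideal attached to exact coordinate data. -/
noncomputable def ExactData.toLevel (hμ : IsOBasis 𝒪 R μ) : Algebra.PatchingLevel 𝒪 r R M ⊥ :=
  letI : Module (MvPowerSeries (Fin r) 𝒪) (LimN 𝒪 r d) := limModule D.A
  { N := LimN 𝒪 r d
    φ := D.φ
    ψ := D.ψ
    ψ_surjective := D.ψ_surjective
    ψ_φ_X := D.ψ_φ_X
    π := limPi 𝒪 r R μ
    π_smul := fun f x => limPi_mulVec D f x
    π_surjective := by
      intro m
      obtain ⟨a, rfl⟩ := hμ.span m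
      refine ⟨LimN.of fun i => C (a i), ?_⟩
      refine (limPi_apply (R := R) (μ := μ) (fun i => C (a i))).trans ?_
      exact Finset.sum_congr rfl fun i _ => by rw [constantCoeff_C]
    ker_π := by
      intro x
      constructor
      · intro hx
        have h0 := hμ.indep _ hx
        obtain ⟨w, hw⟩ := eq_sum_mulVec_phi_X D h0
        have hx' : x = ∑ l, D.φ (X l) • LimN.of (w l) := hw
        rw [hx']
        exact Submodule.sum_mem _ fun l _ =>
          Submodule.smul_mem_smul (Ideal.subset_span ⟨l, rfl⟩) Submodule.mem_top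
      · intro hx
        refine Submodule.smul_induction_on hx ?_ ?_
        · intro a ha n _
          have h1 : limPi 𝒪 r R μ (a • n) = D.ψ a • limPi 𝒪 r R μ n := limPi_mulVec D a n
          have h3 : ∀ m : M, D.ψ a • m = 0 := fun m => by
            rw [psi_eq_zero_of_mem_span D ha, zero_smul]
          exact h1.trans (h3 _)
        · intro y z hy hz
          have h2 : limPi 𝒪 r R μ (y + z) = limPi 𝒪 r R μ y + limPi 𝒪 r R μ z :=
            map_add (limPi 𝒪 r R μ) y z
          exact h2.trans ((congrArg₂ (· + ·) hy hz).trans (add_zero 0))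
    d := d
    b := fun i => LimN.of (Pi.single i 1)
    b_span := fun x => ⟨x, (sum_mulVec_phi_single D x).symm⟩
    b_rel := by
      intro c
      have h1 : (∑ i, D.φ (c i) • LimN.of (Pi.single i 1 : Fin d → MvPowerSeries (Fin r) 𝒪)) =
          LimN.of c := sum_mulVec_phi_single D c
      show (∑ i, D.φ (c i) • LimN.of (Pi.single i 1 : Fin d → MvPowerSeries (Fin r) 𝒪)) = 0 ↔ _
      rw [h1]
      constructor
      · intro h i
        have h' : c = 0 := h
        rw [Ideal.mem_bot, h']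
        rfl
      · intro h
        have h' : c = 0 := funext fun i => (Ideal.mem_bot).mp (h i)
        rw [h']
        rfl }

end ToLevel

end Fermat.Agent.S59.Patch.H967
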