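import Mathlib
import Fermat.Prelude.Def_Algebra_PatchingDatum
import Fermat.Agent.S53.AbstractCA
import Fermat.Agent.S59.Patch.H967.Ulim
import Fermat.Agent.S59.Patch.H967.Coord
import Fermat.Agent.S59.Patch.H967.Exact

/-!
# The limit of a sequence of coordinate data (helper967, row S59, piece PATCH)
-/

set_option autoImplicit false
set_option linter.unusedSectionVars false
set_option linter.style.haveILetI false

namespace Fermat.Agent.S59.Patch.H967

open MvPowerSeries IsLocalRing Filter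

section PS

variable (𝒪 : Type) [CommRing 𝒪] [IsDomain 𝒪] [IsDiscreteValuationRing 𝒪]
  [IsAdicComplete (maximalIdeal 𝒪) 𝒪] [Finite (ResidueField 𝒪)] (r : ℕ)

theorem isProfiniteAdic_ps : IsProfiniteAdic (maximalIdeal (MvPowerSeries (Fin r) 𝒪)) :=
  have h := Fermat.Agent.S53.CA.ps_isAdicComplete 𝒪 r
  ⟨h.toIsHausdorff, h.toIsPrecomplete, fun k => Fermat.Agent.S53.CA.ps_finite_quotient 𝒪 r k⟩

end PS

section LocalHom

variable {𝒪 : Type} [CommRing 𝒪] [IsLocalRing 𝒪] {r : ℕ} {R : Type} [CommRing R] [Algebra 𝒪 R]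
  [IsLocalRing R]

theorem algHom_mem_pow (ψ : MvPowerSeries (Fin r) 𝒪 →ₐ[𝒪] R) (hψ : Function.Surjective ψ)
    {k : ℕ} {g : MvPowerSeries (Fin r) 𝒪}
    (hg : g ∈ maximalIdeal (MvPowerSeries (Fin r) 𝒪) ^ k) : ψ g ∈ maximalIdeal R ^ k := by
  haveI : IsLocalHom (ψ : MvPowerSeries (Fin r) 𝒪 →+* R) := IsLocalHom.of_surjective _ hψ
  have h1 : Ideal.map (ψ : MvPowerSeries (Fin r) 𝒪 →+* R)
      (maximalIdeal (MvPowerSeries (Fin r) 𝒪) ^ k) ≤ maximalIdeal R ^ k := by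
    rw [Ideal.map_pow]
    exact Ideal.pow_right_mono (IsLocalRing.map_maximalIdeal_le _) k
  exact h1 (Ideal.mem_map_of_mem _ hg)

theorem constantCoeff_mem_pow {k : ℕ} {g : MvPowerSeries (Fin r) 𝒪}
    (hg : g ∈ maximalIdeal (MvPowerSeries (Fin r) 𝒪) ^ k) :
    constantCoeff g ∈ maximalIdeal 𝒪 ^ k := by
  have h := (Fermat.Agent.S53.H173.mem_maximalIdeal_pow_iff k g).mp hg 0
  simpa using h

theorem algebraMap_constantCoeff_mem_pow (ψ : MvPowerSeries (Fin r) 𝒪 →ₐ[𝒪] R)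
    (hψ : Function.Surjective ψ) {k : ℕ} {g : MvPowerSeries (Fin r) 𝒪}
    (hg : g ∈ maximalIdeal (MvPowerSeries (Fin r) 𝒪) ^ k) :
    algebraMap 𝒪 R (constantCoeff g) ∈ maximalIdeal R ^ k := by
  have h1 : (C (constantCoeff g) : MvPowerSeries (Fin r) 𝒪) ∈
      maximalIdeal (MvPowerSeries (Fin r) 𝒪) ^ k :=
    Fermat.Agent.S53.H173.C_mem_maximalIdeal_pow (constantCoeff_mem_pow hg)
  have h2 := algHom_mem_pow ψ hψ h1
  have h3 : (C (constantCoeff g) : MvPowerSeries (Fin r) 𝒪) =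
      algebraMap 𝒪 (MvPowerSeries (Fin r) 𝒪) (constantCoeff g) := rfl
  rwa [h3, AlgHom.commutes] at h2

end LocalHom

section Limit

variable {𝒪 : Type} [CommRing 𝒪] [IsLocalRing 𝒪]
  {r : ℕ} {R : Type} [CommRing R] [Algebra 𝒪 R] [IsLocalRing R] [IsNoetherianRing R]
  {M : Type} [AddCommGroup M] [Module R M] [Module.Finite R M] {d : ℕ} {μ : Fin d → M} {E : ℕ}
  (hΛ : IsProfiniteAdic (maximalIdeal (MvPowerSeries (Fin r) 𝒪)))
  (hR : IsProfiniteAdic (maximalIdeal R))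
  (Y : ∀ n : ℕ, CoordData 𝒪 r R μ (maximalIdeal (MvPowerSeries (Fin r) 𝒪) ^ n) E)

/-- The limit of the maps `φ`. -/
noncomputable def limPhi : MvPowerSeries (Fin r) 𝒪 →ₐ[𝒪] MvPowerSeries (Fin r) 𝒪 :=
  { (ulimHom hΛ).comp (RingHom.pi fun n =>
      ((Y n).φ : MvPowerSeries (Fin r) 𝒪 →+* MvPowerSeries (Fin r) 𝒪)) with
    commutes' := fun a => by
      show ulim hΛ (fun n => (Y n).φ (algebraMap 𝒪 (MvPowerSeries (Fin r) 𝒪) a)) =
        algebraMap 𝒪 (MvPowerSeries (Fin r) 𝒪) a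
      simp only [AlgHom.commutes]
      exact ulim_const hΛ _ }

theorem limPhi_apply (c : MvPowerSeries (Fin r) 𝒪) :
    limPhi hΛ Y c = ulim hΛ (fun n => (Y n).φ c) := rfl

/-- The limit of the maps `ψ`. -/
noncomputable def limPsi : MvPowerSeries (Fin r) 𝒪 →ₐ[𝒪] R :=
  { (ulimHom hR).comp (RingHom.pi fun n => ((Y n).ψ : MvPowerSeries (Fin r) 𝒪 →+* R)) with
    commutes' := fun a => by
      show ulim hR (fun n => (Y n).ψ (algebraMap 𝒪 (MvPowerSeries (Fin r) 𝒪) a)) =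
        algebraMap 𝒪 R a
      simp only [AlgHom.commutes]
      exact ulim_const hR _ }

theorem limPsi_apply (f : MvPowerSeries (Fin r) 𝒪) :
    limPsi hR Y f = ulim hR (fun n => (Y n).ψ f) := rfl

theorem isUlim_limPhi (c : MvPowerSeries (Fin r) 𝒪) :
    IsUlim (maximalIdeal (MvPowerSeries (Fin r) 𝒪)) (hyperfilter ℕ)
      (fun n => (Y n).φ c) (limPhi hΛ Y c) :=
  isUlim_ulim hΛ _

theorem isUlim_limPsi (f : MvPowerSeries (Fin r) 𝒪) :
    IsUlim (maximalIdeal R) (hyperfilter ℕ) (fun n => (Y n).ψ f) (limPsi hR Y f) :=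
  isUlim_ulim hR _

theorem coord_A_zero (n : ℕ) (i j : Fin d) :
    (Y n).A 0 i j ∈ maximalIdeal (MvPowerSeries (Fin r) 𝒪) ^ n := by
  have h := (Y n).A_add 0 0 i j
  rw [add_zero] at h
  have h2 : (Y n).A 0 i j = - ((Y n).A 0 i j - ((Y n).A 0 i j + (Y n).A 0 i j)) := by ring
  rw [h2]
  exact Ideal.neg_mem_iff _ |>.mpr h

/-- The limit of the matrices `A`. -/
noncomputable def limA :
    MvPowerSeries (Fin r) 𝒪 →+* Matrix (Fin d) (Fin d) (MvPowerSeries (Fin r) 𝒪) where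
  toFun f := Matrix.of fun i j => ulim hΛ (fun n => (Y n).A f i j)
  map_one' := by
    refine Matrix.ext fun i j => ?_
    show ulim hΛ (fun n => (Y n).A 1 i j) = _
    rw [← ulim_const hΛ ((1 : Matrix (Fin d) (Fin d) (MvPowerSeries (Fin r) 𝒪)) i j)]
    exact ulim_congr_of_mem_pow hΛ fun n => (Y n).A_one i j
  map_mul' f g := by
    refine Matrix.ext fun i j => ?_
    show ulim hΛ (fun n => (Y n).A (f * g) i j) =
      ((Matrix.of fun i j => ulim hΛ (fun n => (Y n).A f i j)) *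
        (Matrix.of fun i j => ulim hΛ (fun n => (Y n).A g i j))) i j
    rw [Matrix.mul_apply]
    simp only [Matrix.of_apply]
    simp only [← ulim_mul, ← ulim_sum]
    refine ulim_congr_of_mem_pow hΛ fun n => ?_
    have h := (Y n).A_mul f g i j
    rwa [Matrix.mul_apply] at h
  map_zero' := by
    refine Matrix.ext fun i j => ?_
    show ulim hΛ (fun n => (Y n).A 0 i j) = 0
    exact ulim_eq_zero_of_mem_pow hΛ fun n => coord_A_zero Y n i j
  map_add' f g := by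
    refine Matrix.ext fun i j => ?_
    show ulim hΛ (fun n => (Y n).A (f + g) i j) =
      ulim hΛ (fun n => (Y n).A f i j) + ulim hΛ (fun n => (Y n).A g i j)
    rw [← ulim_add]
    exact ulim_congr_of_mem_pow hΛ fun n => (Y n).A_add f g i j

theorem limA_apply (f : MvPowerSeries (Fin r) 𝒪) (i j : Fin d) :
    limA hΛ Y f i j = ulim hΛ (fun n => (Y n).A f i j) := rfl

theorem isUlim_limA (f : MvPowerSeries (Fin r) 𝒪) (i j : Fin d) :
    IsUlim (maximalIdeal (MvPowerSeries (Fin r) 𝒪)) (hyperfilter ℕ)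
      (fun n => (Y n).A f i j) (limA hΛ Y f i j) :=
  isUlim_ulim hΛ _

theorem eventually_ge_hyperfilter (k : ℕ) :
    ∀ᶠ n in ((hyperfilter ℕ : Ultrafilter ℕ) : Filter ℕ), k ≤ n :=
  Nat.hyperfilter_le_atTop (eventually_ge_atTop k)

/-- Compatibility of the limit matrices with the limit of the `φ`. -/
theorem limA_limPhi (c : MvPowerSeries (Fin r) 𝒪) :
    limA hΛ Y (limPhi hΛ Y c) =
      c • (1 : Matrix (Fin d) (Fin d) (MvPowerSeries (Fin r) 𝒪)) := by
  refine Matrix.ext fun i j => ?_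
  rw [limA_apply]
  refine IsUlim.eq_ulim hΛ ?_
  intro k
  filter_upwards [isUlim_limPhi hΛ Y c (E * k), eventually_ge_hyperfilter k] with n h1 hn
  -- e = φ∞ c - φ_n c
  have hle : maximalIdeal (MvPowerSeries (Fin r) 𝒪) ^ n ≤
      maximalIdeal (MvPowerSeries (Fin r) 𝒪) ^ k := Ideal.pow_le_pow_right hn
  have he : limPhi hΛ Y c - (Y n).φ c ∈ maximalIdeal (MvPowerSeries (Fin r) 𝒪) ^ (E * k) := by
    have : limPhi hΛ Y c - (Y n).φ c = - ((Y n).φ c - limPhi hΛ Y c) := by ring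
    rw [this]
    exact Ideal.neg_mem_iff _ |>.mpr h1
  have h2 := (Y n).A_small k _ he i j
  rw [sup_eq_left.mpr hle] at h2
  have h3 := hle ((Y n).A_add ((Y n).φ c) (limPhi hΛ Y c - (Y n).φ c) i j)
  rw [add_sub_cancel] at h3
  have h4 := hle ((Y n).A_φ c i j)
  have h5 : (Y n).A (limPhi hΛ Y c) i j -
      (c • (1 : Matrix (Fin d) (Fin d) (MvPowerSeries (Fin r) 𝒪))) i j =
      ((Y n).A (limPhi hΛ Y c) i j - ((Y n).A ((Y n).φ c) i j +
        (Y n).A (limPhi hΛ Y c - (Y n).φ c) i j)) +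
      ((Y n).A ((Y n).φ c) i j -
        (c • (1 : Matrix (Fin d) (Fin d) (MvPowerSeries (Fin r) 𝒪))) i j) +
      (Y n).A (limPhi hΛ Y c - (Y n).φ c) i j := by ring
  rw [h5]
  exact Ideal.add_mem _ (Ideal.add_mem _ h3 h4) h2

include hΛ in
theorem limPsi_surjective : Function.Surjective (limPsi hR Y) := by
  intro y
  have h1 : ∀ n, ∃ f, (Y n).ψ f = y := fun n => (Y n).ψ_surjective y
  choose f hf using h1
  refine ⟨ulim hΛ f, ?_⟩
  rw [limPsi_apply]
  refine IsUlim.eq_ulim hR ?_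
  intro k
  filter_upwards [isUlim_ulim hΛ f k] with n hn
  have h2 : (Y n).ψ (ulim hΛ f) - y = - (Y n).ψ (f n - ulim hΛ f) := by
    rw [map_sub, hf n]
    ring
  rw [h2]
  exact Ideal.neg_mem_iff _ |>.mpr (algHom_mem_pow _ (Y n).ψ_surjective hn)

theorem limPsi_limPhi_X (i : Fin r) : limPsi hR Y (limPhi hΛ Y (X i)) = 0 := by
  rw [limPsi_apply]
  refine IsUlim.eq_ulim hR ?_
  intro k
  filter_upwards [isUlim_limPhi hΛ Y (X i) k] with n hn
  have h2 : (Y n).ψ (limPhi hΛ Y (X i)) - 0 =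
      - (Y n).ψ ((Y n).φ (X i) - limPhi hΛ Y (X i)) := by
    rw [map_sub, (Y n).ψ_φ_X i]
    ring
  rw [h2]
  exact Ideal.neg_mem_iff _ |>.mpr (algHom_mem_pow _ (Y n).ψ_surjective hn)

theorem limA_pi (f : MvPowerSeries (Fin r) 𝒪) (j : Fin d) :
    ∑ i, algebraMap 𝒪 R (constantCoeff (limA hΛ Y f i j)) • μ i = limPsi hR Y f • μ j := by
  rw [← sub_eq_zero]
  have hmem : (∑ i, algebraMap 𝒪 R (constantCoeff (limA hΛ Y f i j)) • μ i -
      limPsi hR Y f • μ j) ∈ (⨅ k : ℕ, maximalIdeal R ^ k • (⊤ : Submodule R M)) := by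
    rw [Submodule.mem_iInf]
    intro k
    have h1 : ∀ᶠ n in ((hyperfilter ℕ : Ultrafilter ℕ) : Filter ℕ),
        ∀ i, (Y n).A f i j - limA hΛ Y f i j ∈ maximalIdeal (MvPowerSeries (Fin r) 𝒪) ^ k :=
      Filter.eventually_all.mpr fun i => isUlim_limA hΛ Y f i j k
    obtain ⟨n, hn1, hn2⟩ := (h1.and (isUlim_limPsi hR Y f k)).exists
    have h2 : ∑ i, algebraMap 𝒪 R (constantCoeff (limA hΛ Y f i j)) • μ i -
        limPsi hR Y f • μ j =
        ((Y n).ψ f - limPsi hR Y f) • μ j -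
        ∑ i, algebraMap 𝒪 R (constantCoeff ((Y n).A f i j - limA hΛ Y f i j)) • μ i := by
      simp only [map_sub, sub_smul, Finset.sum_sub_distrib]
      rw [(Y n).A_π f j]
      abel
    rw [h2]
    refine Submodule.sub_mem _ (Submodule.smul_mem_smul hn2 Submodule.mem_top)
      (Submodule.sum_mem _ fun i _ => Submodule.smul_mem_smul ?_ Submodule.mem_top)
    exact algebraMap_constantCoeff_mem_pow (Y n).ψ (Y n).ψ_surjective (hn1 i)
  rw [Ideal.iInf_pow_smul_eq_bot_of_isLocalRing _ (maximalIdeal.isMaximal R).ne_top] at hmem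
  exact (Submodule.mem_bot R).mp hmem

/-- The exact coordinate data obtained as a limit. -/
noncomputable def limData : ExactData 𝒪 r R μ where
  φ := limPhi hΛ Y
  ψ := limPsi hR Y
  A := limA hΛ Y
  ψ_surjective := limPsi_surjective hΛ hR Y
  ψ_φ_X := limPsi_limPhi_X hΛ hR Y
  A_φ := limA_limPhi hΛ Y
  A_π := limA_pi hΛ hR Y

end Limit

end Fermat.Agent.S59.Patch.H967
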