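import Mathlib
import Fermat.Prelude.Def_Algebra_PatchingDatum
import Fermat.Prelude.Thm_IsLocalRing_isAdicComplete_of_module_finite
import Fermat.Agent.S53.AbstractCA
import Fermat.Agent.S59.Patch.H967.Limit

/-!
# The patching lemma (helper967, row S59, piece PATCH)

`exists_patchingLevel_bot`: a patching datum over a complete discrete valuation ring with finite
residue field, whose prime `ℓ` is a non-unit, yields a patching level with trivial relation
ideal.  (Feed the result to the landed `S57` to obtain freeness of `M` over `R`.)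
-/

set_option autoImplicit false
set_option linter.unusedSectionVars false
set_option linter.style.haveILetI false

namespace Fermat.Agent.S59.Patch.H967

open MvPowerSeries IsLocalRing Filter

section Binomial

variable {A : Type*} [CommRing A]

theorem one_add_pow_sub_one_eq (y : A) (m : ℕ) :
    (1 + y) ^ m - 1 = y * ∑ i ∈ Finset.range m, (1 + y) ^ i := by
  have h := mul_geom_sum (1 + y) m
  rw [add_sub_cancel_left] at h
  exact h.symm

theorem one_add_pow_sub_one_mem {I : Ideal A} {y : A} (hy : y ∈ I) (m : ℕ) :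
    (1 + y) ^ m - 1 ∈ I := by
  rw [one_add_pow_sub_one_eq]
  exact Ideal.mul_mem_right _ _ hy

theorem one_add_pow_sub_one_mem_pow {I : Ideal A} {ℓ : ℕ} (hℓ : (ℓ : A) ∈ I) {y : A} {m : ℕ}
    (hy : y ∈ I ^ (m + 1)) : (1 + y) ^ ℓ - 1 ∈ I ^ (m + 2) := by
  rw [one_add_pow_sub_one_eq]
  have hyI : y ∈ I := Ideal.pow_le_self (Nat.succ_ne_zero m) hy
  have h1 : ∑ i ∈ Finset.range ℓ, (1 + y) ^ i ∈ I := by
    have h2 : ∑ i ∈ Finset.range ℓ, (1 + y) ^ i =
        (ℓ : A) + ∑ i ∈ Finset.range ℓ, ((1 + y) ^ i - 1) := by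
      rw [Finset.sum_sub_distrib]
      simp
    rw [h2]
    exact Ideal.add_mem _ hℓ (Ideal.sum_mem _ fun i _ => one_add_pow_sub_one_mem hyI i)
  have h3 : I ^ (m + 2) = I ^ (m + 1) * I := by rw [← pow_succ]
  rw [h3]
  exact Ideal.mul_mem_mul hy h1

theorem one_add_pow_pow_sub_one_mem_pow {I : Ideal A} {ℓ : ℕ} (hℓ : (ℓ : A) ∈ I) {x : A}
    (hx : x ∈ I) (n : ℕ) : (1 + x) ^ (ℓ ^ n) - 1 ∈ I ^ (n + 1) := by
  induction n with
  | zero => simpa using hx
  | succ n ih =>
    have h := one_add_pow_sub_one_mem_pow hℓ ih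
    rw [add_sub_cancel, ← pow_mul, ← pow_succ] at h
    exact h

end Binomial

section Datum

variable {𝒪 : Type} [CommRing 𝒪] [IsDomain 𝒪] [IsDiscreteValuationRing 𝒪]
  [IsAdicComplete (maximalIdeal 𝒪) 𝒪] [Finite (ResidueField 𝒪)]
  {ℓ r : ℕ}

/-- The relation ideal of the `n`-th level of a patching datum. -/
noncomputable def relIdeal (𝒪 : Type) [CommRing 𝒪] (ℓ r n : ℕ) :
    Ideal (MvPowerSeries (Fin r) 𝒪) :=
  Ideal.span (Set.range fun j : Fin r =>
    ((1 + MvPowerSeries.X j) ^ (ℓ ^ n) - 1 : MvPowerSeries (Fin r) 𝒪))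

omit [IsDomain 𝒪] [IsDiscreteValuationRing 𝒪] [IsAdicComplete (maximalIdeal 𝒪) 𝒪]
  [Finite (ResidueField 𝒪)] in
theorem relIdeal_le_varIdeal (n : ℕ) : relIdeal 𝒪 ℓ r n ≤ varIdeal 𝒪 r := by
  rw [relIdeal, Ideal.span_le]
  rintro _ ⟨j, rfl⟩
  exact one_add_pow_sub_one_mem (X_mem_varIdeal j) _

theorem relIdeal_le_pow (hℓ : (ℓ : 𝒪) ∈ maximalIdeal 𝒪) (n : ℕ) :
    relIdeal 𝒪 ℓ r n ≤ maximalIdeal (MvPowerSeries (Fin r) 𝒪) ^ n := by
  rw [relIdeal, Ideal.span_le]
  rintro _ ⟨j, rfl⟩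
  have hℓ' : ((ℓ : ℕ) : MvPowerSeries (Fin r) 𝒪) ∈ maximalIdeal (MvPowerSeries (Fin r) 𝒪) := by
    rw [Fermat.Agent.S53.H173.mem_maximalIdeal_iff_constantCoeff, map_natCast]
    exact hℓ
  have h := one_add_pow_pow_sub_one_mem_pow hℓ'
    (Fermat.Agent.S53.H173.X_mem_maximalIdeal (R := 𝒪) j) n
  exact Ideal.pow_le_pow_right (Nat.le_succ n) h

end Datum

section Mono

variable {𝒪 : Type} [CommRing 𝒪] [IsLocalRing 𝒪] {r : ℕ} {R : Type} [CommRing R] [Algebra 𝒪 R]
  {M : Type} [AddCommGroup M] [Module R M] {d : ℕ} {μ : Fin d → M} {E : ℕ}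
  {J J' : Ideal (MvPowerSeries (Fin r) 𝒪)}

/-- Coordinate data modulo `J` are coordinate data modulo any larger ideal. -/
def CoordData.mono (Y : CoordData 𝒪 r R μ J E) (h : J ≤ J') : CoordData 𝒪 r R μ J' E where
  φ := Y.φ
  ψ := Y.ψ
  A := Y.A
  ψ_surjective := Y.ψ_surjective
  ψ_φ_X := Y.ψ_φ_X
  A_add f g i j := h (Y.A_add f g i j)
  A_mul f g i j := h (Y.A_mul f g i j)
  A_one i j := h (Y.A_one i j)
  A_φ c i j := h (Y.A_φ c i j)
  A_π := Y.A_π
  A_small k g hg i j := (sup_le_sup_left h _) (Y.A_small k g hg i j)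

end Mono

section Trivial

variable {𝒪 : Type} [CommRing 𝒪] {r : ℕ} {R : Type} [CommRing R] [Algebra 𝒪 R]
  {M : Type} [AddCommGroup M] [Module R M]

/-- The trivial patching level over the zero ring. -/
noncomputable def trivialLevel [Subsingleton R]
    (ψ : MvPowerSeries (Fin r) 𝒪 →ₐ[𝒪] R) (hψ : Function.Surjective ψ) :
    Algebra.PatchingLevel 𝒪 r R M ⊥ :=
  haveI : Subsingleton M := Module.subsingleton R M
  { N := PUnit
    φ := AlgHom.id 𝒪 _
    ψ := ψ
    ψ_surjective := hψ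
    ψ_φ_X := fun _ => Subsingleton.elim _ _
    π := 0
    π_smul := fun _ _ => Subsingleton.elim _ _
    π_surjective := fun m => ⟨0, Subsingleton.elim _ _⟩
    ker_π := fun x => by
      constructor
      · intro _
        have hx : x = 0 := Subsingleton.elim _ _
        rw [hx]
        exact Submodule.zero_mem _
      · intro _
        exact Subsingleton.elim _ _
    d := 0
    b := fun i => i.elim0
    b_span := fun x => ⟨fun i => i.elim0, Subsingleton.elim _ _⟩
    b_rel := fun c => by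
      constructor
      · intro _ i
        exact i.elim0
      · intro _
        exact Subsingleton.elim _ _ }

end Trivial

section Main

variable {𝒪 : Type} [CommRing 𝒪] [IsDomain 𝒪] [IsDiscreteValuationRing 𝒪]
  [IsAdicComplete (maximalIdeal 𝒪) 𝒪] [Finite (ResidueField 𝒪)]
  {r : ℕ} {R : Type} [CommRing R] [Algebra 𝒪 R]

theorem isProfiniteAdic_of_surjective [IsLocalRing R]
    (ψ : MvPowerSeries (Fin r) 𝒪 →ₐ[𝒪] R) (hψ : Function.Surjective ψ) :
    IsProfiniteAdic (maximalIdeal R) := by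
  have hcomplete : IsAdicComplete (maximalIdeal R) R := by
    letI : Algebra (MvPowerSeries (Fin r) 𝒪) R :=
      (ψ : MvPowerSeries (Fin r) 𝒪 →+* R).toAlgebra
    haveI : Module.Finite (MvPowerSeries (Fin r) 𝒪) R :=
      Module.Finite.of_surjective (Algebra.linearMap (MvPowerSeries (Fin r) 𝒪) R) hψ
    haveI : IsLocalHom (algebraMap (MvPowerSeries (Fin r) 𝒪) R) :=
      IsLocalHom.of_surjective _ hψ
    haveI : IsAdicComplete (maximalIdeal (MvPowerSeries (Fin r) 𝒪))
        (MvPowerSeries (Fin r) 𝒪) := Fermat.Agent.S53.CA.ps_isAdicComplete 𝒪 r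
    exact IsLocalRing.isAdicComplete_of_module_finite (𝒪 := MvPowerSeries (Fin r) 𝒪) (T := R)
  refine ⟨hcomplete.toIsHausdorff, hcomplete.toIsPrecomplete, fun k => ?_⟩
  haveI : Finite (MvPowerSeries (Fin r) 𝒪 ⧸ maximalIdeal (MvPowerSeries (Fin r) 𝒪) ^ k) :=
    Fermat.Agent.S53.CA.ps_finite_quotient 𝒪 r k
  let F : MvPowerSeries (Fin r) 𝒪 ⧸ maximalIdeal (MvPowerSeries (Fin r) 𝒪) ^ k →+*
      R ⧸ maximalIdeal R ^ k :=
    Ideal.Quotient.lift _ ((Ideal.Quotient.mk (maximalIdeal R ^ k)).comp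
      (ψ : MvPowerSeries (Fin r) 𝒪 →+* R)) (fun a ha => by
        rw [RingHom.comp_apply, Ideal.Quotient.eq_zero_iff_mem]
        exact algHom_mem_pow ψ hψ ha)
  refine Finite.of_surjective F ?_
  intro y
  obtain ⟨y, rfl⟩ := Ideal.Quotient.mk_surjective y
  obtain ⟨x, rfl⟩ := hψ y
  exact ⟨Ideal.Quotient.mk _ x, rfl⟩

/-- **The patching lemma.** A patching datum yields a patching level with trivial relation
ideal. -/
theorem exists_patchingLevel_bot {ℓ : ℕ} (hℓ : (ℓ : 𝒪) ∈ maximalIdeal 𝒪)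
    {M : Type} [AddCommGroup M] [Module R M]
    (P : Algebra.PatchingDatum 𝒪 ℓ r R M) :
    Nonempty (Algebra.PatchingLevel 𝒪 r R M ⊥) := by
  classical
  rcases subsingleton_or_nontrivial R with hR | hR
  · exact ⟨trivialLevel (P.level 0).ψ (P.level 0).ψ_surjective⟩
  · have hsurj := (P.level 0).ψ_surjective
    haveI : IsLocalRing R :=
      IsLocalRing.of_surjective' ((P.level 0).ψ : MvPowerSeries (Fin r) 𝒪 →+* R) hsurj
    haveI : IsNoetherianRing R :=
      isNoetherianRing_of_surjective (MvPowerSeries (Fin r) 𝒪) R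
        ((P.level 0).ψ : MvPowerSeries (Fin r) 𝒪 →+* R) hsurj
    have hRp : IsProfiniteAdic (maximalIdeal R) :=
      isProfiniteAdic_of_surjective (P.level 0).ψ hsurj
    have hΛ := isProfiniteAdic_ps 𝒪 r
    have hμ := level_isOBasis (P.level 0) (relIdeal_le_varIdeal (𝒪 := 𝒪) (ℓ := ℓ) (r := r) 0)
    haveI : Module.Finite R M := by
      refine ⟨⟨Finset.univ.image fun i => (P.level 0).π ((P.level 0).b i), ?_⟩⟩
      rw [eq_top_iff]
      intro m _
      obtain ⟨a, rfl⟩ := hμ.span m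
      refine Submodule.sum_mem _ fun i _ => Submodule.smul_mem _ _ (Submodule.subset_span ?_)
      simp
    have hY : ∀ n : ℕ, Nonempty (CoordData 𝒪 r R (fun i => (P.level 0).π ((P.level 0).b i))
        (maximalIdeal (MvPowerSeries (Fin r) 𝒪) ^ n)
        (Nat.card (Fin (P.level 0).d → ResidueField 𝒪))) := by
      intro n
      obtain ⟨Y⟩ := exists_coordData (P.level n)
        (relIdeal_le_varIdeal (𝒪 := 𝒪) (ℓ := ℓ) (r := r) n) hμ
      exact ⟨Y.mono (relIdeal_le_pow hℓ n)⟩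
    exact ⟨(limData hΛ hRp fun n => Classical.choice (hY n)).toLevel hμ⟩

end Main

end Fermat.Agent.S59.Patch.H967
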