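import Mathlib
import Fermat.Prelude.Def_Algebra_PatchingDatum
import Fermat.Agent.S57
import Fermat.Agent.S59.Patch.H967.Main

/-!
# Patching: freeness of the module of a patching datum (helper967, row S59, piece PATCH)

Combination of the patching lemma `exists_patchingLevel_bot` with the landed descent step `S57`.
-/

set_option autoImplicit false

namespace Fermat.Agent.S59.Patch.H967

open IsLocalRing

/-- **Patching.** If `M ≠ 0` carries a patching datum over `R`, then `M` is a free and faithful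
`R`-module. -/
theorem free_and_faithful_of_patchingDatum
    {𝒪 : Type} [CommRing 𝒪] [IsDomain 𝒪] [IsDiscreteValuationRing 𝒪]
    [IsAdicComplete (maximalIdeal 𝒪) 𝒪] [Finite (ResidueField 𝒪)]
    {ℓ r : ℕ} (hℓ : (ℓ : 𝒪) ∈ maximalIdeal 𝒪)
    {R : Type} [CommRing R] [Algebra 𝒪 R]
    {M : Type} [AddCommGroup M] [Module R M] [Nontrivial M]
    (P : Algebra.PatchingDatum 𝒪 ℓ r R M) :
    Module.Free R M ∧ Module.annihilator R M = ⊥ := by
  obtain ⟨L⟩ := exists_patchingLevel_bot hℓ P
  obtain ⟨h1, h2, -⟩ := Fermat.Agent.S57.result L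
  exact ⟨h1, h2⟩

/-- **Patching, injectivity form.** If `M ≠ 0` carries a patching datum over `R`, then an
element of `R` acting as zero on `M` is zero. -/
theorem eq_zero_of_smul_eq_zero_of_patchingDatum
    {𝒪 : Type} [CommRing 𝒪] [IsDomain 𝒪] [IsDiscreteValuationRing 𝒪]
    [IsAdicComplete (maximalIdeal 𝒪) 𝒪] [Finite (ResidueField 𝒪)]
    {ℓ r : ℕ} (hℓ : (ℓ : 𝒪) ∈ maximalIdeal 𝒪)
    {R : Type} [CommRing R] [Algebra 𝒪 R]
    {M : Type} [AddCommGroup M] [Module R M] [Nontrivial M]
    (P : Algebra.PatchingDatum 𝒪 ℓ r R M) {a : R} (ha : ∀ m : M, a • m = 0) : a = 0 := by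
  have h := (free_and_faithful_of_patchingDatum hℓ P).2
  have h1 : a ∈ Module.annihilator R M := Module.mem_annihilator.mpr ha
  rw [h] at h1
  exact (Ideal.mem_bot).mp h1

end Fermat.Agent.S59.Patch.H967
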