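import Mathlib
import Fermat.Prelude.Def_Algebra_PatchingDatum
import Fermat.Agent.S59.Patch.H967.Free

/-!
# Patching: `R ≅ T` (helper967, row S59, glue MLT-ISO)

If `φ : R → T` is a surjective ring homomorphism, `M ≠ 0` is a `T`-module and `M`, viewed as an
`R`-module through `φ`, carries a patching datum, then `φ` is bijective (and `M` is free over
`R`).  This is the form in which patching is consumed: `R` a deformation ring, `T` a Hecke ring,
`φ` the surjection of `S54`, `M` a Hecke module.
-/

set_option autoImplicit false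

namespace Fermat.Agent.S59.Patch.H967

open IsLocalRing

/-- **`R = T` from a patching datum** (module structures given independently, compatible
through `φ`). -/
theorem bijective_of_patchingDatum
    {𝒪 : Type} [CommRing 𝒪] [IsDomain 𝒪] [IsDiscreteValuationRing 𝒪]
    [IsAdicComplete (maximalIdeal 𝒪) 𝒪] [Finite (ResidueField 𝒪)]
    {ℓ r : ℕ} (hℓ : (ℓ : 𝒪) ∈ maximalIdeal 𝒪)
    {R : Type} [CommRing R] [Algebra 𝒪 R] {T : Type} [CommRing T]
    (φ : R →+* T) (hφ : Function.Surjective φ)
    {M : Type} [AddCommGroup M] [Module R M] [Module T M] [Nontrivial M]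
    (hcompat : ∀ (a : R) (m : M), a • m = φ a • m)
    (P : Algebra.PatchingDatum 𝒪 ℓ r R M) : Function.Bijective φ := by
  refine ⟨?_, hφ⟩
  rw [injective_iff_map_eq_zero]
  intro a ha
  refine eq_zero_of_smul_eq_zero_of_patchingDatum hℓ P fun m => ?_
  rw [hcompat, ha, zero_smul]

/-- **`R = T` from a patching datum** (`M` an `R`-module by restriction of scalars along `φ`). -/
theorem bijective_of_patchingDatum_compHom
    {𝒪 : Type} [CommRing 𝒪] [IsDomain 𝒪] [IsDiscreteValuationRing 𝒪]
    [IsAdicComplete (maximalIdeal 𝒪) 𝒪] [Finite (ResidueField 𝒪)]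
    {ℓ r : ℕ} (hℓ : (ℓ : 𝒪) ∈ maximalIdeal 𝒪)
    {R : Type} [CommRing R] [Algebra 𝒪 R] {T : Type} [CommRing T]
    (φ : R →+* T) (hφ : Function.Surjective φ)
    {M : Type} [AddCommGroup M] [Module T M] [Nontrivial M]
    (P : letI : Module R M := Module.compHom M φ; Algebra.PatchingDatum 𝒪 ℓ r R M) :
    Function.Bijective φ :=
  letI : Module R M := Module.compHom M φ
  bijective_of_patchingDatum hℓ φ hφ (fun _ _ => rfl) P

/-- The ring isomorphism `R ≃+* T` obtained from a patching datum. -/
noncomputable def ringEquivOfPatchingDatum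
    {𝒪 : Type} [CommRing 𝒪] [IsDomain 𝒪] [IsDiscreteValuationRing 𝒪]
    [IsAdicComplete (maximalIdeal 𝒪) 𝒪] [Finite (ResidueField 𝒪)]
    {ℓ r : ℕ} (hℓ : (ℓ : 𝒪) ∈ maximalIdeal 𝒪)
    {R : Type} [CommRing R] [Algebra 𝒪 R] {T : Type} [CommRing T]
    (φ : R →+* T) (hφ : Function.Surjective φ)
    {M : Type} [AddCommGroup M] [Module R M] [Module T M] [Nontrivial M]
    (hcompat : ∀ (a : R) (m : M), a • m = φ a • m)
    (P : Algebra.PatchingDatum 𝒪 ℓ r R M) : R ≃+* T :=
  RingEquiv.ofBijective φ (bijective_of_patchingDatum hℓ φ hφ hcompat P)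

/-- Under the hypotheses of `bijective_of_patchingDatum`, `M` is free over `T`. -/
theorem free_of_patchingDatum_of_surjective
    {𝒪 : Type} [CommRing 𝒪] [IsDomain 𝒪] [IsDiscreteValuationRing 𝒪]
    [IsAdicComplete (maximalIdeal 𝒪) 𝒪] [Finite (ResidueField 𝒪)]
    {ℓ r : ℕ} (hℓ : (ℓ : 𝒪) ∈ maximalIdeal 𝒪)
    {R : Type} [CommRing R] [Algebra 𝒪 R] {T : Type} [CommRing T]
    (φ : R →+* T) (hφ : Function.Surjective φ)
    {M : Type} [AddCommGroup M] [Module R M] [Module T M] [Nontrivial M]
    (hcompat : ∀ (a : R) (m : M), a • m = φ a • m)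
    (P : Algebra.PatchingDatum 𝒪 ℓ r R M) : Module.Free T M := by
  haveI : Module.Free R M := (free_and_faithful_of_patchingDatum hℓ P).1
  obtain ⟨⟨ι, b⟩⟩ := (inferInstance : Module.Free R M)
  -- transport the basis along `φ`
  refine Module.Free.of_basis (ι := ι) (Module.Basis.mk (v := fun i => b i) ?_ ?_)
  · -- linear independence over `T`
    rw [linearIndependent_iff']
    intro s g hg i hi
    -- lift the coefficients to `R`
    choose g' hg' using fun j => hφ (g j)
    have h1 : ∑ j ∈ s, g' j • b j = 0 := by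
      rw [← hg]
      exact Finset.sum_congr rfl fun j _ => by rw [hcompat, hg']
    have h2 := (linearIndependent_iff'.mp b.linearIndependent) s g' h1 i hi
    rw [← hg', h2, map_zero]
  · -- spanning over `T`
    intro m _
    have hm : m ∈ Submodule.span R (Set.range b) := by
      rw [b.span_eq]
      exact Submodule.mem_top
    refine Submodule.span_induction (p := fun x _ => x ∈ Submodule.span T (Set.range fun i => b i))
      ?_ ?_ ?_ ?_ hm
    · intro x hx
      exact Submodule.subset_span hx
    · exact Submodule.zero_mem _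
    · intro x y _ _ hx hy
      exact Submodule.add_mem _ hx hy
    · intro a x _ hx
      rw [hcompat]
      exact Submodule.smul_mem _ _ hx

end Fermat.Agent.S59.Patch.H967
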